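/-
S33 / Old (owner helper93).  TASK OLD-1: "for all sufficiently large number fields".
-/
import Mathlib
import Fermat.Agent.S24.Defs

set_option autoImplicit false

namespace Fermat.Agent.S33.Old

open Fermat.Agent.S24

/-- `P K₀` holds for all subfields `K₀` of `ℚ̄` containing a suitable number field. -/
def Ev (P : IntermediateField ℚ Kbar → Prop) : Prop :=
  ∃ K₁ : IntermediateField ℚ Kbar, FiniteDimensional ℚ K₁ ∧
    ∀ K₀ : IntermediateField ℚ Kbar, K₁ ≤ K₀ → P K₀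

variable {P Q : IntermediateField ℚ Kbar → Prop}

theorem Ev.mono (h : Ev P) (hPQ : ∀ K₀, P K₀ → Q K₀) : Ev Q := by
  obtain ⟨K₁, hf, h⟩ := h
  exact ⟨K₁, hf, fun K₀ hle => hPQ _ (h _ hle)⟩

theorem ev_of_forall (h : ∀ K₀, P K₀) : Ev P :=
  ⟨⊥, inferInstance, fun K₀ _ => h K₀⟩

/-- (`IntermediateField.finiteDimensional_sup`) -/
theorem Ev.and (hP : Ev P) (hQ : Ev Q) : Ev fun K₀ => P K₀ ∧ Q K₀ := by
  obtain ⟨K₁, hf₁, h₁⟩ := hP
  obtain ⟨K₂, hf₂, h₂⟩ := hQ
  exact ⟨K₁ ⊔ K₂, IntermediateField.finiteDimensional_sup K₁ K₂, fun K₀ hle =>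
    ⟨h₁ _ (le_sup_left.trans hle), h₂ _ (le_sup_right.trans hle)⟩⟩

/-- (induction on the finite type, or `⨆ i, K₁ i` and `IntermediateField.finiteDimensional_iSup_of_finite`) -/
theorem Ev.forall_finite {ι : Type*} [Finite ι] {R : ι → IntermediateField ℚ Kbar → Prop}
    (h : ∀ i, Ev (R i)) : Ev fun K₀ => ∀ i, R i K₀ := by
  choose K₁ hf h using h
  have := hf
  exact ⟨⨆ i, K₁ i, IntermediateField.finiteDimensional_iSup_of_finite, fun K₀ hle i =>
    h i _ ((le_iSup K₁ i).trans hle)⟩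

/-- `ℚ̄` is an algebraic closure of `ℚ` for the canonical `ℚ`-algebra structure -/
theorem ev_isAlgClosure : IsAlgClosure ℚ Kbar := by
  have h : (DivisionRing.toRatAlgebra : Algebra ℚ (AlgebraicClosure ℚ)) =
      AlgebraicClosure.instAlgebra ℚ := Subsingleton.elim _ _
  rw [h]
  infer_instance

/-- normality does not depend on the `ℚ`-algebra structure -/
theorem ev_normal_congr {E : Type*} [Field E] (i₁ i₂ : Algebra ℚ E) (h : @Normal ℚ E _ _ i₁) :
    @Normal ℚ E _ _ i₂ := by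
  rwa [Subsingleton.elim i₂ i₁]

/-- (`ℚ⟮c⟯`) -/
theorem ev_mem (c : Kbar) : Ev fun K₀ => c ∈ K₀ := by
  have := ev_isAlgClosure
  have : Algebra.IsAlgebraic ℚ Kbar := IsAlgClosure.isAlgebraic
  have hc : IsIntegral ℚ c := Algebra.IsIntegral.isIntegral c
  exact ⟨IntermediateField.adjoin ℚ {c}, IntermediateField.adjoin.finiteDimensional hc,
    fun K₀ hle => hle (IntermediateField.mem_adjoin_simple_self ℚ c)⟩

theorem ev_le (K : IntermediateField ℚ Kbar) [FiniteDimensional ℚ K] : Ev fun K₀ => K ≤ K₀ :=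
  ⟨K, inferInstance, fun _ hle => hle⟩

theorem Ev.exists_finite (h : Ev P) : ∃ K₀ : IntermediateField ℚ Kbar, FiniteDimensional ℚ K₀ ∧ P K₀ := by
  obtain ⟨K₁, hf, h⟩ := h
  exact ⟨K₁, hf, h _ le_rfl⟩

/-- (`IntermediateField.normalClosure ℚ K₁ Kbar`) -/
theorem Ev.exists_normal (h : Ev P) :
    ∃ K₀ : IntermediateField ℚ Kbar, FiniteDimensional ℚ K₀ ∧ Normal ℚ K₀ ∧ P K₀ := by
  obtain ⟨K₁, hf, h⟩ := h
  have := ev_isAlgClosure
  have : Normal ℚ Kbar := inferInstance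
  exact ⟨IntermediateField.normalClosure ℚ K₁ Kbar, normalClosure.is_finiteDimensional ℚ K₁ Kbar,
    ev_normal_congr _ _ (normalClosure.normal ℚ K₁ Kbar), h _ K₁.le_normalClosure⟩

/-- a normal subfield is mapped into itself by every automorphism -/
theorem apply_mem_of_normal (K₀ : IntermediateField ℚ Kbar) [Normal ℚ K₀]
    (σ : Kbar ≃ₐ[ℚ] Kbar) {x : Kbar} (hx : x ∈ K₀) : σ x ∈ K₀ := by
  have hn : @Normal ℚ K₀ _ _ (IntermediateField.algebra' K₀) :=
    ev_normal_congr _ _ ‹Normal ℚ K₀›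
  have h := AlgHom.fieldRange_of_normal ((σ : Kbar →ₐ[ℚ] Kbar).comp K₀.val)
  rw [← h]
  exact ⟨⟨x, hx⟩, rfl⟩

/-- a normal subfield is stable under every automorphism -/
theorem mem_iff_apply_mem_of_normal (K₀ : IntermediateField ℚ Kbar) [Normal ℚ K₀]
    (σ : Kbar ≃ₐ[ℚ] Kbar) (x : Kbar) : x ∈ K₀ ↔ σ x ∈ K₀ := by
  refine ⟨apply_mem_of_normal K₀ σ, fun h => ?_⟩
  have := apply_mem_of_normal K₀ σ.symm h
  rwa [AlgEquiv.symm_apply_apply] at this

/-- restriction of an automorphism to a stable subfield -/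
theorem exists_restrict (σ : Kbar ≃ₐ[ℚ] Kbar) (K₀ : IntermediateField ℚ Kbar)
    (hK : ∀ x : Kbar, x ∈ K₀ ↔ σ x ∈ K₀) :
    ∃ s₀ : K₀ ≃+* K₀, ∀ x : K₀, ((s₀ x : K₀) : Kbar) = σ (x : Kbar) := by
  refine ⟨{ toFun := fun x => ⟨σ (x : Kbar), (hK _).1 x.2⟩
            invFun := fun x => ⟨σ.symm (x : Kbar), (hK _).2 (by
              rw [AlgEquiv.apply_symm_apply]; exact x.2)⟩
            left_inv := fun x => Subtype.ext (σ.symm_apply_apply _)
            right_inv := fun x => Subtype.ext (σ.apply_symm_apply _)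
            map_mul' := fun x y => Subtype.ext (map_mul σ _ _)
            map_add' := fun x y => Subtype.ext (map_add σ _ _) }, fun x => rfl⟩

end Fermat.Agent.S33.Old
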