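/-
S33 / Old (owner helper93).  TASK OLD-2: the bridge between `FN M = ℚ̄(X₀(M))` and the function
fields `FK K₀ M` over number fields `K₀ ⊆ ℚ̄`.  Model for all the proofs:
`Fermat.Agent.S18.Descent.KL_of_KL₀'` (file `S18/Descent/Main.lean`).
-/
import Fermat.Agent.S33.Old.Ev
import Fermat.Agent.C1.Defs
import Fermat.Agent.S18.ModDefs
import Fermat.Agent.S18.Vert.Gauss
import Fermat.Agent.S18.Descent.Main
import Fermat.Agent.S18.Descent.HorizontalBC
import Fermat.Agent.S18.Descent.Indep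

set_option autoImplicit false

noncomputable section

namespace Fermat.Agent.S33.Old

open ModularCurve AlgebraicCurve Fermat.Agent.S24 Fermat.Agent.S18 Fermat.Agent.S18.Descent
  Fermat.Agent.GAL.E Fermat.Agent.C1

/-- The embedding `FK K₀ M → FN M`. -/
abbrev tb (M : ℕ) (K₀ : IntermediateField ℚ Kbar) : FK K₀ M →+* FN M :=
  toBar (modularFunctionFieldFull M) K₀

/-- `A ∩ K₀`. -/
abbrev rA (A : ValuationSubring Kbar) (K₀ : IntermediateField ℚ Kbar) : ValuationSubring K₀ :=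
  A.comap (algebraMap K₀ Kbar)

variable {M : ℕ}

theorem coe_tb (K₀ : IntermediateField ℚ Kbar) (x : FK K₀ M) :
    ((tb M K₀ x : FN M) : LaurentSeries Kbar) =
      coeffMap (algebraMap K₀ Kbar) (x : LaurentSeries K₀) := rfl

theorem tb_injective (K₀ : IntermediateField ℚ Kbar) : Function.Injective (tb M K₀) :=
  (tb M K₀).injective

/-- (`exists_definedOver`, `DefinedOver.mono`) -/
theorem ev_defined (y : FN M) : Ev fun K₀ => ∃ y₀ : FK K₀ M, tb M K₀ y₀ = y := by
  have : Algebra.IsAlgebraic ℚ Kbar := AlgebraicClosure.isAlgebraic ℚ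
  obtain ⟨K₁, hK₁, hdef⟩ := exists_definedOver (Ω := Kbar) (F₀ := modularFunctionFieldFull M)
    (x := (y : LaurentSeries Kbar)) y.2
  refine ⟨K₁, hK₁, fun K₀ hle => ?_⟩
  obtain ⟨y₀, hy₀, h⟩ := hdef.mono hle
  exact ⟨⟨y₀, hy₀⟩, Subtype.ext h⟩

/-- the coefficients of an element coming from `FK K₀ M` lie in `K₀` -/
theorem coeff_tb_mem (K₀ : IntermediateField ℚ Kbar) (y₀ : FK K₀ M) (k : ℤ) :
    ((tb M K₀ y₀ : FN M) : LaurentSeries Kbar).coeff k ∈ K₀ := by
  rw [coe_tb, coeffMap_coeff]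
  exact ((y₀ : LaurentSeries K₀).coeff k).2

/-- an element of `FK K₀ M` algebraic over `K₀` becomes a constant (`exists_const_of_isAlgebraic`) -/
theorem exists_const_of_isAlgebraic' [NeZero M] (K₀ : IntermediateField ℚ Kbar) {z : FK K₀ M}
    (hz : IsAlgebraic K₀ z) : ∃ c : Kbar, tb M K₀ z = algebraMap Kbar (FN M) c :=
  exists_const_of_isAlgebraic (algebraMap K₀ Kbar) (tb M K₀)
    (fun a => toBar_algebraMap (modularFunctionFieldFull M) K₀ a) hz

end Fermat.Agent.S33.Old

end
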