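/-
S33 / Old (owner helper93).  TASK OLD-5: Gauss integrality and `≡ 1` between `FN M` and `FK K₀ M`.
Model: `Fermat.Agent.S18.Descent.KL_of_KL₀'`.
-/
import Fermat.Agent.S33.Old.Bridge

set_option autoImplicit false

noncomputable section

namespace Fermat.Agent.S33.Old

open ModularCurve AlgebraicCurve Fermat.Agent.S24 Fermat.Agent.S18 Fermat.Agent.S18.Descent
  Fermat.Agent.GAL.E Fermat.Agent.C1

variable {M : ℕ}

variable (A : ValuationSubring Kbar)

/-- `inc` commutes with the extension of the coefficients. -/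
private theorem bg_inc (K₀ : IntermediateField ℚ Kbar) (X : LaurentSeries (restrict A K₀)) :
    coeffMap A.subtype (coeffMap (restrictHom A K₀) X) =
      coeffMap (algebraMap K₀ Kbar) (coeffMap (restrict A K₀).subtype X) := by
  rw [coeffMap_coeffMap, coeffMap_coeffMap, subtype_comp_restrictHom]

/-- `red` commutes with the extension of the coefficients. -/
private theorem bg_red (K₀ : IntermediateField ℚ Kbar) (X : LaurentSeries (restrict A K₀)) :
    coeffMap (residueMap A K₀) (coeffMap (IsLocalRing.residue (restrict A K₀)) X) =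
      coeffMap (IsLocalRing.residue A) (coeffMap (restrictHom A K₀) X) := by
  rw [coeffMap_coeffMap, coeffMap_coeffMap, residueMap_comp_residue]

private theorem bg_red_ne_zero (K₀ : IntermediateField ℚ Kbar)
    (X : LaurentSeries (restrict A K₀)) :
    coeffMap (IsLocalRing.residue (restrict A K₀)) X ≠ 0 ↔
      coeffMap (IsLocalRing.residue A) (coeffMap (restrictHom A K₀) X) ≠ 0 := by
  rw [← bg_red]
  exact (map_ne_zero_iff _ (Descent.coeffMap_injective (residueMap A K₀)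
    (residueMap_injective A K₀))).symm

private theorem bg_isGaussInt (K₀ : IntermediateField ℚ Kbar) {y₀ : FK K₀ M}
    (hy : ∃ P Q : LaurentSeries (restrict A K₀),
      coeffMap (restrict A K₀).subtype P ∈ FK K₀ M ∧
      coeffMap (restrict A K₀).subtype Q ∈ FK K₀ M ∧
      coeffMap (IsLocalRing.residue (restrict A K₀)) Q ≠ 0 ∧
      (y₀ : LaurentSeries K₀) * coeffMap (restrict A K₀).subtype Q =
        coeffMap (restrict A K₀).subtype P) :
    ∃ P Q : LaurentSeries A, coeffMap A.subtype P ∈ FK Kbar M ∧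
      coeffMap A.subtype Q ∈ FK Kbar M ∧ coeffMap (IsLocalRing.residue A) Q ≠ 0 ∧
      ((tb M K₀ y₀ : FN M) : LaurentSeries Kbar) * coeffMap A.subtype Q =
        coeffMap A.subtype P := by
  obtain ⟨P₀, Q₀, hP, hQ, hQ0, h⟩ := hy
  refine ⟨coeffMap (restrictHom A K₀) P₀, coeffMap (restrictHom A K₀) Q₀, ?_, ?_, ?_, ?_⟩
  · rw [bg_inc]
    exact (tb M K₀ ⟨_, hP⟩ : FN M).2
  · rw [bg_inc]
    exact (tb M K₀ ⟨_, hQ⟩ : FN M).2
  · exact (bg_red_ne_zero A K₀ Q₀).1 hQ0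
  · rw [bg_inc, bg_inc, coe_tb, ← map_mul, h]

/-- Gauss integral elements stay Gauss integral (`P₀, Q₀ ↦ coeffMap (restrictHom A K₀)`;
`residueMap_injective`). -/
theorem isGaussInt_tb (K₀ : IntermediateField ℚ Kbar) {y₀ : FK K₀ M}
    (hy : y₀ ∈ Vert.gaussSubring (rA A K₀) (FK K₀ M)) :
    Vert.IsGaussInt A (FK Kbar M) ((tb M K₀ y₀ : FN M) : LaurentSeries Kbar) :=
  bg_isGaussInt A K₀ hy

/-- the common part of the two descent statements -/
private theorem bg_ev_series (P : LaurentSeries A) (hP : coeffMap A.subtype P ∈ FK Kbar M) :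
    Ev fun K₀ => ∃ (P₀ : LaurentSeries (restrict A K₀))
      (hP₀ : coeffMap (restrict A K₀).subtype P₀ ∈ FK K₀ M),
      coeffMap (restrictHom A K₀) P₀ = P ∧
        tb M K₀ ⟨_, hP₀⟩ = (⟨coeffMap A.subtype P, hP⟩ : FN M) := by
  refine (ev_defined (M := M) (⟨coeffMap A.subtype P, hP⟩ : FN M)).mono fun K₀ => ?_
  rintro ⟨p₀, hp₀⟩
  have h1 : coeffMap (algebraMap K₀ Kbar) (p₀ : LaurentSeries K₀) = coeffMap A.subtype P := by
    rw [← coe_tb, hp₀]
  obtain ⟨P₀, hP₀, hP₀'⟩ := exists_series_restrict A K₀ P (p₀ : LaurentSeries K₀) h1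
  have h2 : coeffMap (restrict A K₀).subtype P₀ ∈ FK K₀ M := by
    rw [hP₀]
    exact p₀.2
  refine ⟨P₀, h2, hP₀', ?_⟩
  rw [← hp₀]
  congr 1
  exact Subtype.ext hP₀

private theorem bg_ev_gaussInt (y : FN M)
    (hy : ∃ P Q : LaurentSeries A, coeffMap A.subtype P ∈ FK Kbar M ∧
      coeffMap A.subtype Q ∈ FK Kbar M ∧ coeffMap (IsLocalRing.residue A) Q ≠ 0 ∧
      (y : LaurentSeries Kbar) * coeffMap A.subtype Q = coeffMap A.subtype P) :
    Ev fun K₀ => ∀ y₀ : FK K₀ M, tb M K₀ y₀ = y →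
      ∃ P Q : LaurentSeries (restrict A K₀),
        coeffMap (restrict A K₀).subtype P ∈ FK K₀ M ∧
        coeffMap (restrict A K₀).subtype Q ∈ FK K₀ M ∧
        coeffMap (IsLocalRing.residue (restrict A K₀)) Q ≠ 0 ∧
        (y₀ : LaurentSeries K₀) * coeffMap (restrict A K₀).subtype Q =
          coeffMap (restrict A K₀).subtype P := by
  obtain ⟨P, Q, hP, hQ, hQ0, h⟩ := hy
  refine ((bg_ev_series A P hP).and (bg_ev_series A Q hQ)).mono fun K₀ => ?_
  rintro ⟨⟨P₀, hP₀, hP₀', hP₀''⟩, ⟨Q₀, hQ₀, hQ₀', hQ₀''⟩⟩ y₀ hy₀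
  refine ⟨P₀, Q₀, hP₀, hQ₀, ?_, ?_⟩
  · refine (bg_red_ne_zero A K₀ Q₀).2 ?_
    rw [hQ₀']
    exact hQ0
  · have h1 : y₀ * (⟨_, hQ₀⟩ : FK K₀ M) = ⟨_, hP₀⟩ := by
      apply tb_injective (M := M) K₀
      rw [map_mul, hy₀, hQ₀'', hP₀'']
      exact Subtype.ext h
    exact congrArg Subtype.val h1

/-- **Descent of Gauss integrality** (`K₁` = a field of definition of `inc P`, `inc Q`;
`exists_series_restrict`). -/
theorem ev_gaussInt (y : FN M) (hy : Vert.IsGaussInt A (FK Kbar M) (y : LaurentSeries Kbar)) :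
    Ev fun K₀ => ∀ y₀ : FK K₀ M, tb M K₀ y₀ = y → y₀ ∈ Vert.gaussSubring (rA A K₀) (FK K₀ M) :=
  bg_ev_gaussInt A y hy

private theorem bg_ev_cong1 (u : FN M)
    (hu : ∃ (P Q : LaurentSeries A) (hP : coeffMap A.subtype P ∈ FK Kbar M)
      (hQ : coeffMap A.subtype Q ∈ FK Kbar M),
      coeffMap (IsLocalRing.residue A) P = coeffMap (IsLocalRing.residue A) Q ∧
        coeffMap (IsLocalRing.residue A) Q ≠ 0 ∧
        u = (⟨coeffMap A.subtype P, hP⟩ : FN M) / ⟨coeffMap A.subtype Q, hQ⟩) :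
    Ev fun K₀ => ∀ u₀ : FK K₀ M, tb M K₀ u₀ = u →
      ∃ (P Q : LaurentSeries (restrict A K₀))
        (hP : coeffMap (restrict A K₀).subtype P ∈ FK K₀ M)
        (hQ : coeffMap (restrict A K₀).subtype Q ∈ FK K₀ M),
        coeffMap (IsLocalRing.residue (restrict A K₀)) P =
          coeffMap (IsLocalRing.residue (restrict A K₀)) Q ∧
        coeffMap (IsLocalRing.residue (restrict A K₀)) Q ≠ 0 ∧
          u₀ = (⟨_, hP⟩ : FK K₀ M) / ⟨_, hQ⟩ := by
  obtain ⟨P, Q, hP, hQ, hres, hQ0, h⟩ := hu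
  refine ((bg_ev_series A P hP).and (bg_ev_series A Q hQ)).mono fun K₀ => ?_
  rintro ⟨⟨P₀, hP₀, hP₀', hP₀''⟩, ⟨Q₀, hQ₀, hQ₀', hQ₀''⟩⟩ u₀ hu₀
  refine ⟨P₀, Q₀, hP₀, hQ₀, ?_, ?_, ?_⟩
  · apply Descent.coeffMap_injective (residueMap A K₀) (residueMap_injective A K₀)
    rw [bg_red, bg_red, hP₀', hQ₀', hres]
  · refine (bg_red_ne_zero A K₀ Q₀).2 ?_
    rw [hQ₀']
    exact hQ0
  · apply tb_injective (M := M) K₀
    rw [map_div₀, hu₀, hQ₀'', hP₀'']
    exact h

/-- **Descent of `≡ 1`.** -/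
theorem ev_cong1 (u : FN M) (hu : Cong1 A M u) :
    Ev fun K₀ => ∀ u₀ : FK K₀ M, tb M K₀ u₀ = u →
      ∃ (P Q : LaurentSeries (rA A K₀)) (hP : Vert.inc (rA A K₀) P ∈ FK K₀ M)
        (hQ : Vert.inc (rA A K₀) Q ∈ FK K₀ M),
        Vert.red (rA A K₀) P = Vert.red (rA A K₀) Q ∧ Vert.red (rA A K₀) Q ≠ 0 ∧
          u₀ = (⟨_, hP⟩ : FK K₀ M) / ⟨_, hQ⟩ :=
  bg_ev_cong1 A u hu

end Fermat.Agent.S33.Old

end
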