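/-
S33 / Old (owner helper93).  TASK OLD-4: descent of the Kummer condition.
-/
import Fermat.Agent.S33.Old.Bridge
import Fermat.Agent.S24.Export.Ramification

set_option autoImplicit false

noncomputable section

namespace Fermat.Agent.S33.Old

open ModularCurve AlgebraicCurve Fermat.Agent.S24 Fermat.Agent.S18 Fermat.Agent.S18.Descent
  Fermat.Agent.GAL.E Fermat.Agent.C1

variable {M : ℕ}

/-- **Descent of the Kummer condition** (as in `KL_of_KL₀'`: `K₁` = a field of definition of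
uniformisers `t v` at the finitely many places `v` with `v.ord h ≠ 0`; then
`dvd_ord_of_forall_dvd_ord`). -/
theorem ev_kum [NeZero M] {n : ℕ} (h : FN M) (hk : IsKum M n h) :
    Ev fun K₀ => ∀ h₀ : FK K₀ M, tb M K₀ h₀ = h →
      ∀ w : Place K₀ (FK K₀ M), (n : ℤ) ∣ w.ord h₀ := by
  classical
  have : FF.IsFF1 Kbar (FN M) := Fermat.Agent.S24.Export.isFF1 M
  have : Algebra.IsAlgebraic ℚ Kbar := AlgebraicClosure.isAlgebraic ℚ
  have hfin : {v : Place Kbar (FN M) | v.ord h ≠ 0}.Finite := FF.finite_ord_ne_zero h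
  choose t ht using fun v : Place Kbar (FN M) => FF.exists_ord_eq_one v
  let S : Finset (LaurentSeries Kbar) :=
    hfin.toFinset.image fun v => ((t v : FN M) : LaurentSeries Kbar)
  have hS : ∀ x ∈ S, x ∈ laurentBaseChange Kbar (modularFunctionFieldFull M) := by
    intro x hx
    obtain ⟨v, -, rfl⟩ := Finset.mem_image.1 hx
    exact (t v).2
  obtain ⟨K₁, hK₁fin, -, -, hdef⟩ := exists_definedOver_finset S hS ∅ ⊥
  refine ⟨K₁, hK₁fin, fun K₀ hle h₀ hh₀ => ?_⟩
  have hint : (algebraMap K₀ Kbar).IsIntegral := by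
    intro c
    have h1 : IsIntegral ℚ c := (AlgebraicClosure.isAlgebraic ℚ).isAlgebraic c |>.isIntegral
    exact h1.tower_top (A := K₀)
  refine dvd_ord_of_forall_dvd_ord (algebraMap K₀ Kbar) (tb M K₀)
    (toBar_algebraMap (modularFunctionFieldFull M) K₀) hint h₀ n ?_ ?_
  · intro v hv
    rw [hh₀] at hv
    obtain ⟨y, hy, hy'⟩ := (hdef ((t v : FN M) : LaurentSeries Kbar)
      (Finset.mem_image.2 ⟨v, hfin.mem_toFinset.2 hv, rfl⟩)).mono hle
    refine ⟨⟨y, hy⟩, ?_⟩
    have h2 : tb M K₀ ⟨y, hy⟩ = t v := Subtype.ext hy'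
    rw [h2, ht]
  · intro v
    rw [hh₀]
    exact hk v

end Fermat.Agent.S33.Old

end
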