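/-
S33 / Old (owner helper93).  TASK OLD-6 (definitions for (KLp) and (EQ) over `ℚ̄`, by descent from
`Cech.klp₀_of_base`, `Cech.eq₀_of_base` (helper73, `S33/Cech/Mod/Level.lean`)).
-/
import Fermat.Agent.S33.Old.BridgeKum
import Fermat.Agent.S33.Old.BridgeGauss
import Fermat.Agent.S33.Cech.Mod.Level
import Fermat.Agent.S30.Defs

set_option autoImplicit false

noncomputable section

namespace Fermat.Agent.S33.Old

open ModularCurve AlgebraicCurve Fermat.Agent.S24 Fermat.Agent.S18 Fermat.Agent.S18.Descent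
  Fermat.Agent.GAL.E Fermat.Agent.C1 Fermat.Agent.S33.Cech

/-- `h ≡ 1 mod c` for the Gauss valuation of `FN M` attached to `A`. -/
def Deep (A : ValuationSubring Kbar) (M : ℕ) (c : Kbar) (h : FN M) : Prop :=
  ∃ y : FN M, Vert.IsGaussInt A (FK Kbar M) (y : LaurentSeries Kbar) ∧
    h = 1 + algebraMap Kbar (FN M) c * y

variable {M p : ℕ} [NeZero M] [Fact p.Prime]

/-- compatibility of the Galois actions: `tb (sigmaF τ x) = galF s (tb x)` if `τ = s|K₀` -/
theorem tb_sigmaF (K₀ : IntermediateField ℚ Kbar) (s : GQ) (τ : K₀ ≃+* K₀)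
    (hτ : ∀ x : K₀, ((τ x : K₀) : Kbar) = s (x : Kbar)) (x : FK K₀ M) :
    tb M K₀ (sigmaF (modularFunctionFieldFull M) τ x) = galF M s (tb M K₀ x) := by
  apply Subtype.ext
  rw [coe_tb, coe_sigmaF, coe_galF, coe_tb, coeffMap_coeffMap, coeffMap_coeffMap]
  exact coeffMap_congr (RingHom.ext fun a => hτ a) _

end Fermat.Agent.S33.Old

end
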