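/-
S33 / Old (owner helper93).  TASK OLD-8: (EQ) over `ℚ̄`.
-/
import Fermat.Agent.S33.Old.Bar
import Fermat.Agent.Lib.InertiaField.Defs

set_option autoImplicit false

noncomputable section

namespace Fermat.Agent.S33.Old

open ModularCurve AlgebraicCurve Fermat.Agent.S24 Fermat.Agent.S18 Fermat.Agent.S18.Descent
  Fermat.Agent.GAL.E Fermat.Agent.C1 Fermat.Agent.S33.Cech

variable {M p : ℕ} [NeZero M] [Fact p.Prime]

/-- **(EQ) over `ℚ̄`.**
Proof.  Same descent, with `Ev.exists_normal`; `τ := s|K₀` (`mem_iff_apply_mem_of_normal`,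
`exists_restrict`); `ev_kum` also for `galF M s h * h ^ (p - c)` (`IsKum.galF`, `IsKum.mul`,
`IsKum.pow`), transported by `tb_sigmaF`; `hτA`, `hτI` from `s ∈ A.inertiaSubgroupIn ℚ`
(`Lib.InertiaField.apply_mem_of_mem_decomposition`, `inertia_le_decomposition`,
`apply_sub_mem_nonunits`, `Descent.mem_nonunits_restrict`).  `eq₀_of_base`. -/
theorem eq_bar (hpM : ¬ p ∣ M) (D : BaseData M p) (A : ValuationSubring Kbar)
    (hA : A.LiesOverPrime p) {ζ : Kbar} (hζ : IsPrimitiveRoot ζ p) {s : GQ}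
    (hs : s ∈ A.inertiaSubgroupIn ℚ) {c : ℕ} (hc : c ≤ p) (hsζ : s ζ = ζ ^ c) {h : FN M}
    (hk : IsKum M p h) (hd : Deep A M ((ζ - 1) ^ p) h) :
    ∃ w : FN M, galF M s h * h ^ (p - c) = w ^ p := by
  have hp : p.Prime := Fact.out
  obtain ⟨y, hy, hh⟩ := hd
  have hku : IsKum M p (galF M s h * h ^ (p - c)) := (hk.galF s).mul (hk.pow _)
  obtain ⟨K₀, hfin, hnorm, ⟨h₀, hh₀⟩, ⟨y₀, hy₀⟩, hζK, hkum, hkum', hgauss⟩ :=
    ((ev_defined h).and ((ev_defined y).and ((ev_mem ζ).and ((ev_kum h hk).and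
      ((ev_kum _ hku).and (ev_gaussInt A y hy)))))).exists_normal
  obtain ⟨τ, hτ⟩ := exists_restrict s K₀ (mem_iff_apply_mem_of_normal K₀ s)
  have hζ₀ : IsPrimitiveRoot (⟨ζ, hζK⟩ : K₀) p :=
    IsPrimitiveRoot.of_map_of_injective (f := algebraMap K₀ Kbar) hζ (algebraMap K₀ Kbar).injective
  have hτA : ∀ a ∈ A.comap (algebraMap K₀ Kbar), τ a ∈ A.comap (algebraMap K₀ Kbar) := by
    intro a ha
    show ((τ a : K₀) : Kbar) ∈ A
    rw [hτ]
    exact Lib.InertiaField.apply_mem_of_mem_decomposition A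
      (Lib.InertiaField.inertia_le_decomposition A hs) ha
  have hτI : ∀ a ∈ A.comap (algebraMap K₀ Kbar),
      τ a - a ∈ (A.comap (algebraMap K₀ Kbar)).nonunits := by
    intro a ha
    refine (mem_nonunits_restrict (A := A) (K₀ := K₀)).2 ?_
    show ((τ a : K₀) : Kbar) - (a : Kbar) ∈ A.nonunits
    rw [hτ]
    exact Lib.InertiaField.apply_sub_mem_nonunits A hs ha
  have hτζ : τ (⟨ζ, hζK⟩ : K₀) = (⟨ζ, hζK⟩ : K₀) ^ c := by
    apply Subtype.ext
    rw [hτ]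
    exact hsζ
  have hrel : h₀ = 1 + algebraMap K₀ (FK K₀ M) (((⟨ζ, hζK⟩ : K₀) - 1) ^ p) * y₀ := by
    apply tb_injective K₀
    have e : tb M K₀ (algebraMap K₀ (FK K₀ M) (((⟨ζ, hζK⟩ : K₀) - 1) ^ p)) =
        algebraMap Kbar (FN M) ((ζ - 1) ^ p) :=
      toBar_algebraMap (modularFunctionFieldFull M) K₀ _
    rw [map_add, map_one, map_mul, hh₀, hy₀, e, hh]
  have htbu : tb M K₀ (sigmaF (modularFunctionFieldFull M) τ h₀ * h₀ ^ (p - c)) =
      galF M s h * h ^ (p - c) := by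
    rw [map_mul, map_pow, tb_sigmaF K₀ s τ hτ, hh₀]
  obtain ⟨r, hr0, halg⟩ := eq₀_of_base hpM D A hA K₀ ⟨ζ, hζK⟩ hζ₀ τ hτA hτI hc hτζ h₀ y₀
    (hgauss y₀ hy₀) hrel (hkum h₀ hh₀) (hkum' _ htbu)
  obtain ⟨d, hd⟩ := exists_const_of_isAlgebraic' K₀ halg
  obtain ⟨d', hd'⟩ := IsAlgClosed.exists_pow_nat_eq d hp.pos
  have hr0' : tb M K₀ r ≠ 0 := (map_ne_zero _).2 hr0
  refine ⟨algebraMap Kbar (FN M) d' / tb M K₀ r, ?_⟩
  rw [map_mul, map_pow, htbu] at hd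
  rw [div_pow, ← map_pow, hd', ← hd, mul_div_cancel_left₀ _ (pow_ne_zero _ hr0')]

private theorem barEq_aux {X : Type*} [AddCommGroup X] (x r : X) (p a : ℕ) (hp : 0 < p)
    (hpx : p • x = 0) (h0 : r + (p - a % p) • x = 0) : r = a • x := by
  have hc : a % p ≤ p := (Nat.mod_lt a hp).le
  have h1 : (p - a % p) • x + (a % p) • x = 0 := by
    rw [← add_nsmul, Nat.sub_add_cancel hc, hpx]
  have h2 : a • x = (a % p) • x := by
    conv_lhs => rw [← Nat.div_add_mod a p]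
    rw [add_nsmul, mul_nsmul, hpx, smul_zero, zero_add]
  rw [h2, eq_neg_of_add_eq_zero_left h0]
  exact neg_eq_of_add_eq_zero_right h1

/-- **Inertia acts through the cyclotomic character on deep classes.**
(`a = p * (a / p) + a % p`; `c := a % p`; `s ζ = ζ ^ a = ζ ^ c`; `eq_bar`; in `W M p`:
`rho s x + (p - c) • x = 0`, `p • x = 0` (`nsmul_W`), so `rho s x = c • x = a • x`.) -/
theorem rho_eq_smul_of_deep (hpM : ¬ p ∣ M) (D : BaseData M p) (A : ValuationSubring Kbar)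
    (hA : A.LiesOverPrime p) {ζ : Kbar} (hζ : IsPrimitiveRoot ζ p) {s : GQ}
    (hs : s ∈ A.inertiaSubgroupIn ℚ) {a : ℕ} (ha : Fermat.Agent.S30.IsCyc p 1 s a)
    (h : kum M p) (hd : Deep A M ((ζ - 1) ^ p) ((h : (FN M)ˣ) : FN M)) :
    rho M p s (cls h) = a • cls h := by
  have hp : p.Prime := Fact.out
  have hζp : ζ ^ p = 1 := hζ.pow_eq_one
  have hsζ : s ζ = ζ ^ (a % p) := by
    rw [ha ζ (by rwa [pow_one]), pow_eq_pow_mod a hζp]
  have hc : a % p ≤ p := (Nat.mod_lt a hp.pos).le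
  obtain ⟨w, hw⟩ := eq_bar hpM D A hA hζ hs hc hsζ (h := ((h : (FN M)ˣ) : FN M)) h.2 hd
  have h0 : rho M p s (cls h) + (p - a % p) • cls h = 0 := by
    rw [rho_cls, ← cls_pow, ← cls_mul, cls_eq_zero_iff]
    exact mem_pows_of_eq_pow (w := w) hw
  exact barEq_aux (cls h) _ p a hp.pos (nsmul_W _) h0

end Fermat.Agent.S33.Old

end
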