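/-
S33 / Old (owner helper93).  TASK OLD-14: choice of representatives.
-/
import Fermat.Agent.S33.Mid.Nodes

set_option autoImplicit false
set_option linter.unusedSectionVars false

noncomputable section

namespace Fermat.Agent.S33.Old

open ModularCurve AlgebraicCurve Fermat.Agent.S24 Fermat.Agent.GAL.E Fermat.Agent.C1
  Fermat.Agent.S33.Mid Fermat.Agent.S30

variable {M p : ℕ} [NeZero M] [Fact p.Prime]

/-- Choice of representatives (bar level).  `u x` from `IsKinf`; `cls (TU (u x)) = TW (cls (u x)) =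
cls (u (t x))` (`HeckeOp.TW_cls`), so the quotient is a `p`-th power (`cls_eq_zero_iff`). -/
theorem exists_reps (A : ValuationSubring Kbar) (Hp : HeckeOp M p) {X : Type*} (ι : X → W M p)
    (t : X → X) (hK : ∀ x, IsKinf A (ι x)) (ht : ∀ x, Hp.TW p (ι x) = ι (t x)) :
    ∃ (u : X → kum M p) (w : X → FN M), (∀ x, cls (u x) = ι x) ∧
      (∀ x, Cong1 A M (((u x : kum M p) : (FN M)ˣ) : FN M)) ∧ (∀ x, w x ≠ 0) ∧
      ∀ x, Hp.T (((u x : kum M p) : (FN M)ˣ) : FN M) =
        (((u (t x) : kum M p) : (FN M)ˣ) : FN M) * w x ^ p := by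
  choose u hu hc using hK
  have key : ∀ x, ∃ w : (FN M)ˣ, w ^ p =
      Hp.TU ((u x : kum M p) : (FN M)ˣ) * (((u (t x) : kum M p) : (FN M)ˣ))⁻¹ := by
    intro x
    have h1 : cls ((⟨Hp.TU ((u x : kum M p) : (FN M)ˣ),
        Hp.TU_mem_kum ((u x : kum M p) : (FN M)ˣ) (u x).2⟩ : kum M p) * (u (t x))⁻¹) = 0 := by
      rw [cls_mul, cls_inv, ← HeckeOp.TW_cls, hu, hu, ht]
      exact add_neg_cancel (ι (t x))
    exact mem_pows.mp ((cls_eq_zero_iff _).mp h1)
  choose w hw using key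
  refine ⟨u, fun x => ((w x : (FN M)ˣ) : FN M), hu, hc, fun x => (w x).ne_zero, fun x => ?_⟩
  have h2 := congrArg (fun z : (FN M)ˣ => (z : FN M)) (hw x)
  simp only [Units.val_pow_eq_pow_val, Units.val_mul, HeckeOp.coe_TU,
    Units.val_inv_eq_inv_val] at h2
  rw [h2, mul_comm, inv_mul_cancel_right₀ (Units.ne_zero _)]

end Fermat.Agent.S33.Old

end
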