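/-
S33 / Old (owner helper93).  TASK OLD-3: descent of membership from `ℚ̄ · F₀` to `K₀ · F₀`.
-/
import Fermat.Agent.S33.Old.Bridge

set_option autoImplicit false

noncomputable section

namespace Fermat.Agent.S33.Old

open ModularCurve AlgebraicCurve Fermat.Agent.S24 Fermat.Agent.S18 Fermat.Agent.S18.Descent
  Fermat.Agent.GAL.E Fermat.Agent.C1

variable {M : ℕ}

theorem bridgeMem_coeffEmb_eq (K₀ : IntermediateField ℚ Kbar) (f : LaurentSeries ℚ) :
    coeffEmb Kbar f = coeffMap (algebraMap K₀ Kbar) (coeffEmb K₀ f) := by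
  rw [coeffEmb, coeffEmb, coeffMap_coeffMap]
  exact coeffMap_congr (Subsingleton.elim _ _) f

/-- the multiplicative closure of the image of `F₀` is the image of `F₀` -/
theorem bridgeMem_closure (F₀ : IntermediateField ℚ (LaurentSeries ℚ)) {m : LaurentSeries Kbar}
    (hm : m ∈ Submonoid.closure (⇑(coeffEmb Kbar) '' (F₀ : Set (LaurentSeries ℚ)))) :
    ∃ f ∈ F₀, coeffEmb Kbar f = m := by
  induction hm using Submonoid.closure_induction with
  | mem y hy => exact hy
  | one => exact ⟨1, F₀.one_mem, map_one _⟩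
  | mul x y _ _ hx hy =>
    obtain ⟨f, hf, rfl⟩ := hx
    obtain ⟨g, hg, rfl⟩ := hy
    exact ⟨f * g, F₀.mul_mem hf hg, map_mul _ _ _⟩

/-- a `K₀`-linear form maps `ℚ̄[F₀]` into `K₀ · F₀` -/
theorem bridgeMem_coeffLin_mem (F₀ : IntermediateField ℚ (LaurentSeries ℚ))
    (K₀ : IntermediateField ℚ Kbar) (lam : Kbar →ₗ[K₀] K₀) {r : LaurentSeries Kbar}
    (hr : r ∈ Algebra.adjoin Kbar (⇑(coeffEmb Kbar) '' (F₀ : Set (LaurentSeries ℚ)))) :
    coeffLin lam r ∈ laurentBaseChange K₀ F₀ := by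
  have hr' := (SetLike.ext_iff.1 (Algebra.adjoin_eq_span Kbar
    (⇑(coeffEmb Kbar) '' (F₀ : Set (LaurentSeries ℚ)))) r).1 hr
  clear hr
  induction hr' using Submodule.span_induction generalizing lam with
  | mem y hy =>
    obtain ⟨f, hf, rfl⟩ := bridgeMem_closure F₀ hy
    have e : coeffLin lam (coeffEmb Kbar f) = coeffEmb K₀ f * algebraMap K₀ _ (lam 1) := by
      rw [← coeffLin_algebraMap, ← coeffLin_mul, map_one, mul_one, bridgeMem_coeffEmb_eq K₀]
    rw [e]
    exact mul_mem (coeffEmb_mem_laurentBaseChange K₀ hf) ((laurentBaseChange K₀ F₀).algebraMap_mem _)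
  | zero =>
    rw [coeffLin_zero]
    exact zero_mem _
  | add x y _ _ hx hy =>
    rw [coeffLin_add]
    exact add_mem (hx lam) (hy lam)
  | smul a y _ hy =>
    have e : coeffLin lam (algebraMap Kbar (LaurentSeries Kbar) a * y) =
        coeffLin (lam ∘ₗ LinearMap.mulLeft K₀ a) y := by
      ext k
      rw [coeffLin_coeff, coeffLin_coeff, algebraMap_laurentSeries_eq_single,
        HahnSeries.coeff_single_zero_mul]
      rfl
    rw [Algebra.smul_def, e]
    exact hy _

/-- **Descent of membership.**  A series with coefficients in `K₀` which lies in `ℚ̄ · F₀` lies in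
`K₀ · F₀`.
Proof.  (1) every element of `laurentBaseChange Ω F₀` is a quotient
`(∑ aᵢ coeffEmb Ω fᵢ) / (∑ bⱼ coeffEmb Ω gⱼ)`, `aᵢ, bⱼ ∈ Ω`, `fᵢ, gⱼ ∈ F₀`, nonzero denominator
(`mem_laurentBaseChange_iff`, `Subfield.closure_induction`).  (2) Write
`coeffMap x * ∑ bⱼ ĝⱼ = ∑ aᵢ f̂ᵢ`.  For a `K₀`-linear form `lam : ℚ̄ → K₀`, `coeffLin lam` is
`K₀((q))`-linear (`coeffLin_mul`), so `x * ∑ lam bⱼ • gⱼ' = ∑ lam aᵢ • fᵢ'` with
`gⱼ' = coeffEmb K₀ gⱼ ∈ K₀ · F₀`.  (3) Some coefficient `c` of `∑ bⱼ ĝⱼ` is nonzero; choose `lam`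
with `lam c ≠ 0` (`Module.forall_dual_apply_eq_zero_iff` or a basis); then `∑ lam bⱼ • gⱼ' ≠ 0`. -/
theorem mem_of_coeffMap_mem (F₀ : IntermediateField ℚ (LaurentSeries ℚ))
    (K₀ : IntermediateField ℚ Kbar) {x : LaurentSeries K₀}
    (h : coeffMap (algebraMap K₀ Kbar) x ∈ laurentBaseChange Kbar F₀) :
    x ∈ laurentBaseChange K₀ F₀ := by
  obtain ⟨r, hr, s, hs, e⟩ := IntermediateField.mem_adjoin_iff_div.1 h
  by_cases hs0 : s = 0
  · rw [hs0, div_zero] at e
    have hx : x = 0 := (map_eq_zero (coeffMap (algebraMap K₀ Kbar))).1 e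
    rw [hx]
    exact zero_mem _
  · obtain ⟨k, hk⟩ : ∃ k, s.coeff k ≠ 0 := by
      by_contra hcon
      push Not at hcon
      exact hs0 (HahnSeries.ext (funext hcon))
    obtain ⟨lam, hlam⟩ : ∃ lam : Kbar →ₗ[K₀] K₀, lam (s.coeff k) ≠ 0 := by
      by_contra hcon
      push Not at hcon
      exact hk ((Module.forall_dual_apply_eq_zero_iff K₀ (s.coeff k)).1 hcon)
    have hls : coeffLin lam s ≠ 0 := by
      intro h0
      apply hlam
      rw [← coeffLin_coeff, h0]
      rfl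
    have e1 : coeffMap (algebraMap K₀ Kbar) x * s = r := by
      rw [e, div_mul_cancel₀ _ hs0]
    have e2 : x * coeffLin lam s = coeffLin lam r := by
      rw [← coeffLin_mul, e1]
    have e3 : x = coeffLin lam r / coeffLin lam s := by
      rw [← e2, mul_div_cancel_right₀ _ hls]
    rw [e3]
    exact div_mem (bridgeMem_coeffLin_mem F₀ K₀ lam hr) (bridgeMem_coeffLin_mem F₀ K₀ lam hs)

/-- An element of `FN M` all of whose coefficients lie in `K₀` comes from `FK K₀ M`. -/
theorem exists_tb_eq_of_coeff_mem (K₀ : IntermediateField ℚ Kbar) (y : FN M)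
    (hy : ∀ k : ℤ, (y : LaurentSeries Kbar).coeff k ∈ K₀) : ∃ y₀ : FK K₀ M, tb M K₀ y₀ = y := by
  let x : LaurentSeries K₀ :=
    { coeff := fun k => ⟨(y : LaurentSeries Kbar).coeff k, hy k⟩
      isPWO_support' := by
        refine (y : LaurentSeries Kbar).isPWO_support.mono ?_
        intro k hk
        rw [Function.mem_support] at hk
        rw [HahnSeries.mem_support]
        intro h0
        exact hk (Subtype.ext h0) }
  have hx : coeffMap (algebraMap K₀ Kbar) x = (y : LaurentSeries Kbar) := by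
    ext k
    rfl
  have hmem : x ∈ laurentBaseChange K₀ (modularFunctionFieldFull M) := by
    apply mem_of_coeffMap_mem
    rw [hx]
    exact y.2
  exact ⟨⟨x, hmem⟩, Subtype.ext hx⟩

end Fermat.Agent.S33.Old

end
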