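/-
S33 / Old (owner helper93).  TASK OLD-9 (see also FrameHecke, FrameFrob): everything needed to run the abstract depth theory
(`S33/Depth`) on `FK K₀ M`, `K₀` a number field containing `ζ_p`.
-/
import Fermat.Agent.S33.Old.BridgeMem
import Fermat.Agent.S33.Old.Bar
import Fermat.Agent.S33.Depth.Inst.Frob
import Fermat.Agent.S33.Depth.Inst.Op0
import Fermat.Agent.S18.Gauss.Field
import Fermat.Agent.Lib.MulHecke.Gal
import Fermat.Agent.Lib.Frobenius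

set_option autoImplicit false

noncomputable section

namespace Fermat.Agent.S33.Old

open ModularCurve AlgebraicCurve Fermat.Agent.S24 Fermat.Agent.S18 Fermat.Agent.S18.Descent
  Fermat.Agent.GAL.E Fermat.Agent.C1 Fermat.Agent.S33.Cech Fermat.Agent.S33.Depth
  Fermat.Agent.Lib.MulHecke

variable {M p : ℕ}

/-- (`Descent.isDiscreteValuationRing_restrict`) -/
theorem isDVR_rA (hp : p.Prime) (A : ValuationSubring Kbar) (hA : A.LiesOverPrime p)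
    (K₀ : IntermediateField ℚ Kbar) [FiniteDimensional ℚ K₀] :
    IsDiscreteValuationRing (rA A K₀) :=
  Descent.isDiscreteValuationRing_restrict K₀ hp.ne_zero hA

/-- (`Gauss.hasNf_FK` with a uniformiser `exists_isUnif_comap`: `f * Q = ϖ ^ n * P`; multiply by
`ϖ ^ (-n)` on the appropriate side.) -/
theorem isQuot_FK [Fact p.Prime] (A : ValuationSubring Kbar) (hA : A.LiesOverPrime p)
    (K₀ : IntermediateField ℚ Kbar) [FiniteDimensional ℚ K₀] (M : ℕ) :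
    Vert.IsQuot (rA A K₀) (FK K₀ M) := by
  obtain ⟨ϖ₀, h₀, -⟩ := exists_isUnif_comap A hA K₀
  have hnf := Gauss.hasNf_FK h₀ M
  intro f
  by_cases hf : (f : LaurentSeries K₀) = 0
  · exact ⟨0, 1, by rw [map_zero]; exact zero_mem _, by rw [map_one]; exact one_mem _, one_ne_zero,
      by rw [hf, zero_mul, map_zero]⟩
  obtain ⟨n, P, Q, hP, hQ, hP0, hQ0, h⟩ := hnf f f.2 hf
  have hπ0 : ϖ₀ ≠ 0 := h₀.ne_zero
  have hC : ∀ m : ℕ, Vert.inc (rA A K₀) (HahnSeries.C (⟨ϖ₀, h₀.mem⟩ : rA A K₀) ^ m) =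
      Gauss.cst (ϖ₀ ^ m) := by
    intro m
    rw [map_pow, Vert.inc_C, ← map_pow]
  have hQne : Q ≠ 0 := by
    intro h0
    apply hQ0
    rw [h0, map_zero]
  rcases Int.eq_nat_or_neg n with ⟨m, rfl | rfl⟩
  · refine ⟨HahnSeries.C (⟨ϖ₀, h₀.mem⟩ : rA A K₀) ^ m * P, Q, ?_, hQ, hQne, ?_⟩
    · rw [map_mul, hC]
      exact mul_mem (Gauss.cst_mem _) hP
    · rw [map_mul, hC]
      rw [zpow_natCast] at h
      exact h
  · refine ⟨P, HahnSeries.C (⟨ϖ₀, h₀.mem⟩ : rA A K₀) ^ m * Q, hP, ?_, ?_, ?_⟩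
    · rw [map_mul, hC]
      exact mul_mem (Gauss.cst_mem _) hQ
    · refine mul_ne_zero (pow_ne_zero _ (Vert.C_ne_zero fun h0 => hπ0 ?_)) hQne
      exact congrArg Subtype.val h0
    · rw [map_mul, hC]
      have h' : (f : LaurentSeries K₀) * Vert.inc (rA A K₀) Q =
          Gauss.cst (ϖ₀ ^ (-(m : ℤ))) * Vert.inc (rA A K₀) P := h
      calc (f : LaurentSeries K₀) * (Gauss.cst (ϖ₀ ^ m) * Vert.inc (rA A K₀) Q)
          = Gauss.cst (ϖ₀ ^ m) * ((f : LaurentSeries K₀) * Vert.inc (rA A K₀) Q) := by ring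
        _ = Gauss.cst (ϖ₀ ^ m * ϖ₀ ^ (-(m : ℤ))) * Vert.inc (rA A K₀) P := by
            rw [h', Gauss.cst_mul, mul_assoc]
        _ = Vert.inc (rA A K₀) P := by
            rw [zpow_neg, zpow_natCast, mul_inv_cancel₀ (pow_ne_zero _ hπ0), Gauss.cst_one, one_mul]

/-- The arithmetic data of a discrete valuation ring containing `ζ_p`. -/
structure Frame {K : Type*} [Field K] (p : ℕ) (A₀ : ValuationSubring K) where
  π : A₀
  η : A₀
  e : ℕ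
  j0 : ℕ
  ξ : A₀ˣ
  μ : A₀ˣ
  isP : IsP p A₀ π η e
  hj0 : (p - 1) * j0 = e
  hξ : IsPrimitiveRoot ξ p
  hμ : (ξ : A₀) - 1 = μ * π ^ j0

/-- (`exists_isUnif_comap`, `Cech.exists_isArithP`, `Cech.exists_zeta_unif`; an `IsUnif` element is
irreducible in the valuation ring; `ζ` is a unit of `A₀` because `ζ ^ p = 1`.) -/
theorem exists_frame [Fact p.Prime] (A : ValuationSubring Kbar) (hA : A.LiesOverPrime p)
    (K₀ : IntermediateField ℚ Kbar) [FiniteDimensional ℚ K₀] {ζ : Kbar}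
    (hζ : IsPrimitiveRoot ζ p) (hζK : ζ ∈ K₀) :
    ∃ Fr : Frame p (rA A K₀), (((Fr.ξ : rA A K₀) : K₀) : Kbar) = ζ := by
  have hp : p.Prime := Fact.out
  obtain ⟨ϖ₀, h₀, -⟩ := exists_isUnif_comap A hA K₀
  obtain ⟨η₀, e, hP⟩ := Cech.exists_isArithP A hA K₀ h₀
  have hζ' : IsPrimitiveRoot (⟨ζ, hζK⟩ : K₀) p :=
    IsPrimitiveRoot.of_map_of_injective (f := algebraMap K₀ Kbar)
      (hf := (algebraMap K₀ Kbar).injective) hζ
  obtain ⟨j0, μ, hj0, hμ, hμ', hζμ⟩ := Cech.exists_zeta_unif hp h₀ hP hζ'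
  have hϖ0 : ϖ₀ ≠ 0 := h₀.ne_zero
  have hp0 : (p : K₀) ≠ 0 := Nat.cast_ne_zero.mpr hp.ne_zero
  have hη0 : η₀ ≠ 0 := by
    rintro rfl
    rw [hP.p_eq, zero_mul] at hp0
    exact hp0 rfl
  have hμ0 : μ ≠ 0 := by
    rintro rfl
    rw [zero_mul, sub_eq_zero] at hζμ
    exact hζ'.ne_one hp.one_lt hζμ
  have hζ0 : (⟨ζ, hζK⟩ : K₀) ≠ 0 := hζ'.ne_zero hp.ne_zero
  have hmem : ∀ x : K₀, x ^ p = 1 → x ∈ rA A K₀ := by
    intro x hx
    rw [← ValuationSubring.valuation_le_one_iff]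
    have h1 := congrArg (rA A K₀).valuation hx
    rw [map_pow, map_one] at h1
    exact ((pow_eq_one_iff.mp h1).resolve_right hp.ne_zero).le
  have hζm : (⟨ζ, hζK⟩ : K₀) ∈ rA A K₀ := hmem _ hζ'.pow_eq_one
  have hζm' : (⟨ζ, hζK⟩ : K₀)⁻¹ ∈ rA A K₀ := hmem _ (by rw [inv_pow, hζ'.pow_eq_one, inv_one])
  let ξ : (rA A K₀)ˣ := ⟨⟨_, hζm⟩, ⟨_, hζm'⟩, Subtype.ext (mul_inv_cancel₀ hζ0),
    Subtype.ext (inv_mul_cancel₀ hζ0)⟩
  let μu : (rA A K₀)ˣ := ⟨⟨μ, hμ⟩, ⟨μ⁻¹, hμ'⟩, Subtype.ext (mul_inv_cancel₀ hμ0),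
    Subtype.ext (inv_mul_cancel₀ hμ0)⟩
  refine ⟨⟨⟨ϖ₀, h₀.mem⟩, ⟨η₀, hP.η_mem⟩, e, j0, ξ, μu, ?_, hj0, ?_, ?_⟩, rfl⟩
  · refine ⟨h₀.irreducible, Ded.isUnit_of_inv_mem hη0 hP.η_inv, hP.e_pos, ?_, ?_⟩
    · apply Subtype.ext
      have := hP.p_eq
      simpa using this
    · intro c
      obtain ⟨d, hd, hdiv⟩ := hP.perfect c c.2
      refine ⟨⟨d, hd⟩, ⟨_, hdiv⟩, Subtype.ext ?_⟩
      show d ^ p - (c : K₀) = ϖ₀ * ((d ^ p - (c : K₀)) / ϖ₀)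
      rw [mul_div_cancel₀ _ hϖ0]
  · rw [← IsPrimitiveRoot.coe_units_iff]
    exact IsPrimitiveRoot.of_map_of_injective (f := (rA A K₀).subtype)
      (hf := (rA A K₀).subtype_injective) hζ'
  · apply Subtype.ext
    exact hζμ

end Fermat.Agent.S33.Old

end
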