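/-
S33 / Old (owner helper93).  TASK OLD-11: a lift of the Frobenius on `FK K₀ M`.
-/
import Fermat.Agent.S33.Old.Frame
import Fermat.Agent.Lib.InertiaField.Frob

set_option autoImplicit false

noncomputable section

namespace Fermat.Agent.S33.Old

open ModularCurve AlgebraicCurve Fermat.Agent.S24 Fermat.Agent.S18 Fermat.Agent.S18.Descent
  Fermat.Agent.GAL.E Fermat.Agent.C1 Fermat.Agent.S33.Cech Fermat.Agent.S33.Depth
  Fermat.Agent.Lib.MulHecke

variable {M p : ℕ}

/-- **Frobenius lift.**  `σ` a Frobenius element at `A`, `K₀` stable under `σ`.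
(`exists_restrict`; `coe_sigmaF`; `hσ.mem_decompositionSubgroup`,
`Lib.InertiaField.apply_mem_of_mem_decomposition`, `Lib.InertiaField.frob_apply_sub_pow_mem`.) -/
theorem exists_frobLift (A : ValuationSubring Kbar) {σ : GQ} (hσ : A.IsFrobeniusAt σ p)
    (K₀ : IntermediateField ℚ Kbar) (hK : ∀ x : Kbar, x ∈ K₀ ↔ σ x ∈ K₀) (M : ℕ) :
    ∃ s₀ : K₀ ≃+* K₀,
      FrobLift p (rA A K₀) (FK K₀ M) (sigmaF (modularFunctionFieldFull M) s₀) s₀ := by
  obtain ⟨s₀, hs₀⟩ := exists_restrict σ K₀ hK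
  have hd : σ ∈ A.decompositionSubgroup ℚ := hσ.mem_decompositionSubgroup
  refine ⟨s₀, ⟨fun f => coe_sigmaF s₀ f, fun a => ?_, fun a ha => ?_⟩⟩
  · constructor
    · intro h
      have h1 : (a : Kbar) ∈ A := h
      have h2 := Lib.InertiaField.apply_mem_of_mem_decomposition A hd h1
      rw [← hs₀] at h2
      exact h2
    · intro h
      have h1 : ((s₀ a : K₀) : Kbar) ∈ A := h
      rw [hs₀] at h1
      have h2 := Lib.InertiaField.apply_mem_of_mem_decomposition A (inv_mem hd) h1
      have h3 : σ⁻¹ (σ (a : Kbar)) = (a : Kbar) := σ.symm_apply_apply _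
      rw [h3] at h2
      exact h2
  · have haA : (((a : rA A K₀) : K₀) : Kbar) ∈ A := a.2
    have h1 := Lib.InertiaField.frob_apply_sub_pow_mem A p hσ haA
    rw [← map_pow, ← sub_eq_zero, ← map_sub, IsLocalRing.residue_eq_zero_iff,
      ← ValuationSubring.coe_mem_nonunits_iff, ValuationSubring.mem_nonunits_iff_or]
    rw [ValuationSubring.mem_nonunits_iff_or] at h1
    have e : ((((⟨s₀ (a : K₀), ha⟩ - a ^ p : rA A K₀) : rA A K₀) : K₀) : Kbar) =
        σ (((a : rA A K₀) : K₀) : Kbar) - (((a : rA A K₀) : K₀) : Kbar) ^ p := by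
      rw [← hs₀]
      rfl
    rcases h1 with h1 | h1
    · left
      apply Subtype.ext
      rw [e, h1]
      rfl
    · right
      intro h2
      apply h1
      rw [← e]
      exact h2

end Fermat.Agent.S33.Old

end
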