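/-
S33 / Old (owner helper93).  TASK OLD-10: `T_p` on `FK K₀ M`.  (proofs: helper40)
-/
import Fermat.Agent.S33.Old.Frame

set_option autoImplicit false

noncomputable section

namespace Fermat.Agent.S33.Old

open ModularCurve AlgebraicCurve Fermat.Agent.S24 Fermat.Agent.S18 Fermat.Agent.S18.Descent
  Fermat.Agent.GAL.E Fermat.Agent.C1 Fermat.Agent.S33.Cech Fermat.Agent.S33.Depth
  Fermat.Agent.Lib.MulHecke

variable {M p : ℕ}

/-- The `q`-expansion of an abstract Hecke operator is the formal operator `Tm`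
(same proof as `Lib.MulHecke.coe_heckeF`, from `Hp.qExpand_T`). -/
theorem coe_heckeOp [NeZero p] (Hp : HeckeOp M p) {ζ : Kbarˣ} (hζ : IsPrimitiveRoot ζ p)
    (u : FN M) : ((Hp.T u : FN M) : LaurentSeries Kbar) = Tm p ζ (u : LaurentSeries Kbar) := by
  apply qExpand_injective (R := Kbar) p
  rw [Hp.qExpand_T u, Tm, map_mul, qExpand_qExpand, qExpand_V hζ,
    prodTw_eq_of_isPrimitiveRoot hζ (B.isPrimitiveRoot_zetaK p)]
  rfl

/-- Galois commutes with Hecke (same proof as `Lib.MulHecke.galF_heckeF`, from `coe_heckeOp`). -/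
theorem galF_heckeOp [NeZero p] (Hp : HeckeOp M p) (σ : GQ) (u : FN M) :
    galF M σ (Hp.T u) = Hp.T (galF M σ u) := by
  have hζ : IsPrimitiveRoot (B.zetaK p) p := B.isPrimitiveRoot_zetaK p
  have hinj : Function.Injective
      (Units.map (((σ : Kbar →+* Kbar)) : Kbar →* Kbar)) :=
    Units.map_injective (f := (((σ : Kbar →+* Kbar)) : Kbar →* Kbar)) σ.injective
  have hζ' : IsPrimitiveRoot (Units.map (((σ : Kbar →+* Kbar)) : Kbar →* Kbar) (B.zetaK p)) p :=
    hζ.map_of_injective hinj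
  apply Subtype.ext
  rw [coe_galF, coe_heckeOp Hp hζ, coe_heckeOp Hp hζ', coe_galF, coeffMap_Tm]

/-- **`T_p` over `K₀`.**  `Tm p ξ u` has coefficients in `K₀` and becomes `Hp.T (tb u) ∈ FN M` over `ℚ̄`
(`coeffMap_Tm`, `coe_heckeOp`), so it lies in `FK K₀ M` by `mem_of_coeffMap_mem`; multiplicativity:
`Tm_mul`, `Tm_one`. -/
theorem exists_heckeK [NeZero p] (Hp : HeckeOp M p) (K₀ : IntermediateField ℚ Kbar) {ξ : K₀ˣ}
    (hξ : IsPrimitiveRoot ξ p) :
    ∃ T₀ : FK K₀ M →* FK K₀ M,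
      (∀ u : FK K₀ M, ((T₀ u : FK K₀ M) : LaurentSeries K₀) = Tm p ξ (u : LaurentSeries K₀)) ∧
      ∀ u : FK K₀ M, tb M K₀ (T₀ u) = Hp.T (tb M K₀ u) := by
  have hinj : Function.Injective
      (Units.map ((algebraMap K₀ Kbar : K₀ →+* Kbar) : K₀ →* Kbar)) :=
    Units.map_injective (f := ((algebraMap K₀ Kbar : K₀ →+* Kbar) : K₀ →* Kbar))
      (algebraMap K₀ Kbar).injective
  have hξ' : IsPrimitiveRoot (Units.map ((algebraMap K₀ Kbar : K₀ →+* Kbar) : K₀ →* Kbar) ξ) p :=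
    hξ.map_of_injective hinj
  have hco : ∀ u : FK K₀ M, coeffMap (algebraMap K₀ Kbar) (Tm p ξ (u : LaurentSeries K₀)) =
      ((Hp.T (tb M K₀ u) : FN M) : LaurentSeries Kbar) := by
    intro u
    rw [coeffMap_Tm, coe_heckeOp Hp hξ', coe_tb]
  have hmem : ∀ u : FK K₀ M, Tm p ξ (u : LaurentSeries K₀) ∈ FK K₀ M := by
    intro u
    apply mem_of_coeffMap_mem
    rw [hco]
    exact (Hp.T (tb M K₀ u)).2
  refine ⟨{ toFun := fun u => ⟨_, hmem u⟩, map_one' := ?_, map_mul' := ?_ }, fun u => rfl,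
    fun u => Subtype.ext (hco u)⟩
  · apply Subtype.ext
    exact Tm_one ξ
  · intro u v
    apply Subtype.ext
    exact Tm_mul hξ _ _

end Fermat.Agent.S33.Old

end
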