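/-
S33 / Old (owner helper93).  TASK OLD-13: from the depth over `K₀` to `Deep` over `ℚ̄`.
-/
import Fermat.Agent.S33.Old.Frame
import Fermat.Agent.S33.Old.FrameHecke
import Fermat.Agent.S33.Old.FrameFrob
import Fermat.Agent.S33.Depth.Rel

set_option autoImplicit false

noncomputable section

namespace Fermat.Agent.S33.Old

open ModularCurve AlgebraicCurve Fermat.Agent.S24 Fermat.Agent.S18 Fermat.Agent.S18.Descent
  Fermat.Agent.GAL.E Fermat.Agent.C1 Fermat.Agent.S33.Cech Fermat.Agent.S33.Depth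

variable {M p : ℕ} (A : ValuationSubring Kbar) {K₀ : IntermediateField ℚ Kbar}
  [IsDiscreteValuationRing (rA A K₀)] (hq : Vert.IsQuot (rA A K₀) (FK K₀ M)) (hp : p.Prime)
  (Fr : Frame p (rA A K₀))

/-- the root of unity of the frame, in `ℚ̄` -/
abbrev Frame.ζ : Kbar := (((Fr.ξ : rA A K₀) : K₀) : Kbar)

/-- the root of unity of the frame, as a unit of `K₀` -/
abbrev Frame.ξK : K₀ˣ := unitK Fr.ξ

theorem Frame.isPrimitiveRoot_ξK : IsPrimitiveRoot (Fr.ξK A) p :=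
  Fr.hξ.map_of_injective (f := Units.map (((rA A K₀).subtype : rA A K₀ →+* K₀) : rA A K₀ →* K₀))
    (Units.map_injective Subtype.val_injective)

theorem Frame.pow_eq_one : Fr.ξ ^ p = 1 := Fr.hξ.pow_eq_one

theorem Frame.j0_pos : 1 ≤ Fr.j0 := by
  rcases Nat.eq_zero_or_pos Fr.j0 with h0 | h0
  · have h1 := Fr.hj0
    have h2 := Fr.isP.e_pos
    rw [h0, mul_zero] at h1
    omega
  · exact h0

/-- `u₀ = P / Q` with `red P = red Q ≠ 0` has depth `≥ 1` (`Vert.div_sub_one_mem`, `Gen.Rel.refl`). -/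
theorem hasDepth_one_of_cong1 {u₀ : FK K₀ M}
    (h : ∃ (P Q : LaurentSeries (rA A K₀)) (hP : Vert.inc (rA A K₀) P ∈ FK K₀ M)
        (hQ : Vert.inc (rA A K₀) Q ∈ FK K₀ M),
        Vert.red (rA A K₀) P = Vert.red (rA A K₀) Q ∧ Vert.red (rA A K₀) Q ≠ 0 ∧
          u₀ = (⟨_, hP⟩ : FK K₀ M) / ⟨_, hQ⟩) :
    (gGen hq hp Fr.isP).HasDepth u₀ 1 := by
  obtain ⟨P, Q, hP, hQ, hPQ, hQ0, rfl⟩ := h
  obtain ⟨g, hg⟩ := Vert.div_sub_one_mem hq Fr.isP.irr P Q hP hQ hPQ hQ0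
  exact ⟨_, Gen.Rel.refl _, (gData_dvd_iff hq hp Fr.isP 1 _).2 ⟨g, g.2, by rw [pow_one]; exact hg⟩⟩

/-- two elements which differ by a `p`-th power are related -/
theorem rel_of_tb_eq {u₀ u₁ w₀ : FK K₀ M} (hw : w₀ ≠ 0)
    (h : tb M K₀ u₀ = tb M K₀ u₁ * tb M K₀ w₀ ^ p) : (gGen hq hp Fr.isP).Rel u₀ u₁ := by
  have h1 : u₀ = u₁ * w₀ ^ p := tb_injective K₀ (by rw [h, map_mul, map_pow])
  refine ⟨1, (gGen hq hp Fr.isP).Kc.one_mem, w₀⁻¹, one_ne_zero, inv_ne_zero hw, ?_⟩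
  rw [h1, inv_pow]
  field_simp

/-- the same with a constant -/
theorem rel_of_tb_eq' {u₀ u₁ w₀ : FK K₀ M} {c : K₀} (hc : c ≠ 0) (hw : w₀ ≠ 0)
    (h : tb M K₀ u₀ = algebraMap Kbar (FN M) (c : Kbar) * tb M K₀ u₁ * tb M K₀ w₀ ^ p) :
    (gGen hq hp Fr.isP).Rel u₀ u₁ := by
  have hc' : algebraMap K₀ (FK K₀ M) c ≠ 0 := by
    rw [Ne, map_eq_zero]
    exact hc
  have h1 : u₀ = algebraMap K₀ (FK K₀ M) c * u₁ * w₀ ^ p := tb_injective K₀ (by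
    rw [h, map_mul, map_mul, map_pow]
    congr 2
    exact (toBar_algebraMap (modularFunctionFieldFull M) K₀ c).symm)
  refine ⟨(algebraMap K₀ (FK K₀ M) c)⁻¹, (gGen hq hp Fr.isP).Kc.inv_mem ⟨c, rfl⟩, w₀⁻¹,
    inv_ne_zero hc', inv_ne_zero hw, ?_⟩
  rw [h1, inv_pow]
  field_simp

/-- the relation between `π ^ (p j0)` and `(ξ - 1) ^ p` in `K₀` -/
theorem Frame.transfer_pow_eq :
    (((Fr.π : rA A K₀) : K₀)) ^ (p * Fr.j0) =
      ((((Fr.ξ : rA A K₀) : K₀)) - 1) ^ p * ((((Fr.μ⁻¹ : (rA A K₀)ˣ) : rA A K₀) : K₀)) ^ p := by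
  have h1 : (((Fr.ξ : rA A K₀) : K₀)) - 1 =
      (((Fr.μ : rA A K₀) : K₀)) * (((Fr.π : rA A K₀) : K₀)) ^ Fr.j0 :=
    congrArg Subtype.val Fr.hμ
  have h2 : (((Fr.μ : rA A K₀) : K₀)) * ((((Fr.μ⁻¹ : (rA A K₀)ˣ) : rA A K₀) : K₀)) = 1 :=
    congrArg Subtype.val Fr.μ.mul_inv
  rw [h1, ← mul_pow, mul_right_comm, h2, one_mul, ← pow_mul, mul_comm]

/-- the common part of the two theorems below -/
theorem transfer_deep_aux {u₀ : FK K₀ M} {m : ℕ}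
    (h : (gGen hq hp Fr.isP).HasDepth u₀ (p * Fr.j0 + m)) :
    ∃ (c : Kbar) (g : FN M), c ≠ 0 ∧ g ≠ 0 ∧
      Deep A M ((Fr.ζ A - 1) ^ p * ((((Fr.π : rA A K₀) : K₀) : Kbar)) ^ m)
        (algebraMap Kbar (FN M) c * g ^ p * tb M K₀ u₀) := by
  obtain ⟨u', ⟨c₀, ⟨c₁, rfl⟩, g₀, hc0, hg0, rfl⟩, hd⟩ := h
  obtain ⟨z, hz, hzu⟩ := (gData_dvd_iff hq hp Fr.isP _ _).1 hd
  have hc1 : c₁ ≠ 0 := by
    rintro rfl
    exact hc0 (map_zero _)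
  have hal : ∀ a : K₀, algebraMap Kbar (FN M) (a : Kbar) = tb M K₀ (algebraMap K₀ (FK K₀ M) a) :=
    fun a => (toBar_algebraMap (modularFunctionFieldFull M) K₀ a).symm
  set ν : rA A K₀ := ((Fr.μ⁻¹ : (rA A K₀)ˣ) : rA A K₀) ^ p with hν
  have hνmem : algebraMap K₀ (FK K₀ M) (ν : K₀) ∈ Vert.gaussVal (rA A K₀) (FK K₀ M) hq :=
    constA_le hq (mem_constA.2 ⟨ν, rfl⟩)
  have hy : algebraMap K₀ (FK K₀ M) (ν : K₀) * z ∈ Vert.gaussSubring (rA A K₀) (FK K₀ M) :=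
    (Vert.gaussVal (rA A K₀) (FK K₀ M) hq).mul_mem _ _ hνmem hz
  refine ⟨(c₁ : Kbar), tb M K₀ g₀, ?_, ?_, tb M K₀ (algebraMap K₀ (FK K₀ M) (ν : K₀) * z),
    isGaussInt_tb A K₀ hy, ?_⟩
  · intro h0
    exact hc1 (Subtype.ext h0)
  · rw [Ne, map_eq_zero]
    exact hg0
  · have e1 : ((Fr.ζ A - 1) ^ p * ((((Fr.π : rA A K₀) : K₀) : Kbar)) ^ m : Kbar) =
        (((((((Fr.ξ : rA A K₀) : K₀)) - 1) ^ p * (((Fr.π : rA A K₀) : K₀)) ^ m : K₀)) : Kbar) := by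
      push_cast
      rfl
    rw [e1, hal, hal, ← map_pow, ← map_mul, ← map_mul, ← map_mul, ← map_one (tb M K₀), ← map_add]
    congr 1
    have e2 : algebraMap K₀ (FK K₀ M) c₁ * g₀ ^ p * u₀ =
        1 + algebraMap K₀ (FK K₀ M) ((Fr.π : rA A K₀) : K₀) ^ (p * Fr.j0 + m) * z := by
      rw [← hzu]
      ring
    rw [e2, ← map_pow, pow_add, Fr.transfer_pow_eq A, ← mul_assoc, ← map_mul]
    congr 3
    rw [hν]
    push_cast
    ring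

/-- **Critical depth.**  `c₀ g₀ ^ p u₀ = 1 + π ^ (p j0) z`, `z` Gauss integral, and
`π ^ (p j0) = (μ⁻¹ (ξ - 1)) ^ p`; so `y = μ⁻¹ ^ p z`; apply `tb` (`isGaussInt_tb`,
`toBar_algebraMap`). -/
theorem deep_of_hasDepth {u₀ : FK K₀ M} (h : (gGen hq hp Fr.isP).HasDepth u₀ (p * Fr.j0)) :
    ∃ (c : Kbar) (g : FN M), c ≠ 0 ∧ g ≠ 0 ∧
      Deep A M ((Fr.ζ A - 1) ^ p) (algebraMap Kbar (FN M) c * g ^ p * tb M K₀ u₀) := by
  obtain ⟨c, g, hc, hg, hd⟩ := transfer_deep_aux A hq hp Fr (m := 0) h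
  rw [pow_zero, mul_one] at hd
  exact ⟨c, g, hc, hg, hd⟩

/-- **Beyond the critical depth** (`t = π`). -/
theorem deep_of_hasDepth_succ {u₀ : FK K₀ M}
    (h : (gGen hq hp Fr.isP).HasDepth u₀ (p * Fr.j0 + 1)) :
    ∃ (c : Kbar) (g : FN M) (t : Kbar), c ≠ 0 ∧ g ≠ 0 ∧ t ∈ A.nonunits ∧
      Deep A M ((Fr.ζ A - 1) ^ p * t) (algebraMap Kbar (FN M) c * g ^ p * tb M K₀ u₀) := by
  obtain ⟨c, g, hc, hg, hd⟩ := transfer_deep_aux A hq hp Fr (m := 1) h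
  rw [pow_one] at hd
  refine ⟨c, g, _, hc, hg, ?_, hd⟩
  have h1 : ((Fr.π : rA A K₀) : K₀) ∈ (Descent.restrict A K₀).nonunits := by
    rw [ValuationSubring.mem_nonunits_iff_exists_mem_maximalIdeal]
    refine ⟨Fr.π.2, ?_⟩
    rw [IsLocalRing.mem_maximalIdeal, mem_nonunits_iff]
    exact Fr.isP.irr.not_isUnit
  exact Descent.mem_nonunits_restrict.1 h1

omit [IsDiscreteValuationRing (rA A K₀)] in
/-- multiplying a Kummer unit by a constant and a `p`-th power does not change its class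
(`c = d ^ p`, `IsAlgClosed.exists_pow_nat_eq`) -/
theorem exists_kum_eq (hp0 : 0 < p) (u : kum M p) {c : Kbar} {g : FN M} (hc : c ≠ 0) (hg : g ≠ 0) :
    ∃ h : kum M p, ((h : (FN M)ˣ) : FN M) =
      algebraMap Kbar (FN M) c * g ^ p * ((u : (FN M)ˣ) : FN M) ∧ cls h = cls u := by
  obtain ⟨d, hd⟩ := IsAlgClosed.exists_pow_nat_eq c hp0
  have hd0 : d ≠ 0 := by
    rintro rfl
    rw [zero_pow hp0.ne'] at hd
    exact hc hd.symm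
  have hw0 : algebraMap Kbar (FN M) d * g ≠ 0 :=
    mul_ne_zero (by rw [Ne, map_eq_zero]; exact hd0) hg
  have hw : (Units.mk0 _ hw0) ^ p ∈ kum M p := pows_le_kum M p ⟨Units.mk0 _ hw0, rfl⟩
  refine ⟨⟨_, hw⟩ * u, ?_, ?_⟩
  · push_cast
    rw [Units.val_mk0, mul_pow, ← map_pow, hd]
  · rw [cls_mul, (cls_eq_zero_iff _).2 ⟨Units.mk0 _ hw0, rfl⟩]
    exact zero_add (cls u)

end Fermat.Agent.S33.Old

end
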