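/-
S33 / Old (owner helper93).  TASK OLD-15: dynamics of `T_p` (assembly of L1 over a number field).
-/
import Fermat.Agent.S33.Old.Transfer
import Fermat.Agent.S33.Old.Old1Reps
import Fermat.Agent.S33.Depth.L1
import Fermat.Agent.S33.Mid.Nodes

set_option autoImplicit false

noncomputable section

namespace Fermat.Agent.S33.Old

open ModularCurve AlgebraicCurve Fermat.Agent.S24 Fermat.Agent.S18 Fermat.Agent.S18.Descent
  Fermat.Agent.GAL.E Fermat.Agent.C1 Fermat.Agent.S33.Cech Fermat.Agent.S33.Depth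
  Fermat.Agent.S33.Mid Fermat.Agent.S30

variable {M p : ℕ} [NeZero M] [Fact p.Prime]

/-- **Dynamics of `T_p` on a finite set of classes `≡ 1`: all of them are deep.**
Proof.
1. `exists_reps` gives `u`, `w`.
2. `Ev`: by `ev_defined` (for all `u x`, `w x`), `ev_cong1` (for all `u x`), `ev_mem ζ`,
   `Ev.forall_finite`, `Ev.and`, `Ev.exists_normal`: a number field `K₀`, normal over `ℚ`, with
   `u₀ x, w₀ x : FK K₀ M`, `tb (u₀ x) = u x`, `tb (w₀ x) = w x`, `ζ ∈ K₀`.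
3. `haveI := isDVR_rA ..`; `hq := isQuot_FK ..`; `Fr` from `exists_frame` (`Fr.ζ A = ζ`);
   `T₀` from `exists_heckeK Hp K₀ (Fr.isPrimitiveRoot_ξK A)`; `σ` from
   `Lib.Frobenius.exists_isFrobeniusAt`; `s₀` from `exists_frobLift` (`mem_iff_apply_mem_of_normal`).
4. `G := gGen hq hp Fr.isP`; `op_T` (with `Fr.pow_eq_one`), `rootStable_of_frobLift`;
   `haveI := IsP.charP Fr.isP`.
5. `L1 hp2 hOp hroot Fr.hj0 u₀ t ht_inj hrel h1` with `hrel x` from `rel_of_tb_eq` and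
   `h1 x` from `hasDepth_one_of_cong1`.
6. `deep_of_hasDepth`, `exists_kum_eq`. -/
theorem deep_of_dynamics (hp2 : p ≠ 2) (A : ValuationSubring Kbar) (hA : A.LiesOverPrime p)
    (Hp : HeckeOp M p) {X : Type*} [Finite X] (ι : X → W M p) (t : X → X)
    (htinj : Function.Injective t) (hK : ∀ x, IsKinf A (ι x))
    (ht : ∀ x, Hp.TW p (ι x) = ι (t x)) {ζ : Kbar} (hζ : IsPrimitiveRoot ζ p) (x : X) :
    ∃ h : kum M p, cls h = ι x ∧ Deep A M ((ζ - 1) ^ p) ((h : (FN M)ˣ) : FN M) := by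
  have hp : p.Prime := Fact.out
  have : NeZero p := ⟨hp.ne_zero⟩
  -- 1. representatives
  obtain ⟨u, w, hcls, hcong, hw0, hT⟩ := exists_reps A Hp ι t hK ht
  -- 2. a number field of definition
  have E1 : Ev fun K₀ => ∀ x, ∃ y₀ : FK K₀ M, tb M K₀ y₀ = (((u x : kum M p) : (FN M)ˣ) : FN M) :=
    Ev.forall_finite fun x => ev_defined _
  have E2 : Ev fun K₀ => ∀ x, ∃ y₀ : FK K₀ M, tb M K₀ y₀ = w x :=
    Ev.forall_finite fun x => ev_defined _
  have E3 := Ev.forall_finite fun x => ev_cong1 A _ (hcong x)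
  obtain ⟨K₀, hfin, hnorm, ⟨⟨h1, h2⟩, h3⟩, h4⟩ :=
    (((E1.and E2).and E3).and (ev_mem ζ)).exists_normal
  choose u₀ hu₀ using h1
  choose w₀ hw₀ using h2
  -- 3. the frame
  have := isDVR_rA hp A hA K₀
  have hq := isQuot_FK A hA K₀ M
  obtain ⟨Fr, hFr⟩ := exists_frame A hA K₀ hζ h4
  obtain ⟨T₀, hT₀, hT₀'⟩ := exists_heckeK Hp K₀ (Fr.isPrimitiveRoot_ξK A)
  obtain ⟨σ, hσ⟩ := Lib.Frobenius.exists_isFrobeniusAt A p hp hA
  obtain ⟨s₀, hs₀⟩ := exists_frobLift A hσ K₀ (mem_iff_apply_mem_of_normal K₀ σ) M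
  -- 4. the abstract hypotheses
  have hOp := op_T hq hp Fr.isP (Fr.pow_eq_one A) T₀ hT₀
  have hroot := rootStable_of_frobLift hq hp Fr.isP hs₀
  have := IsP.charP Fr.isP
  -- 5. Lemma L1
  have hrel : ∀ x, (gGen hq hp Fr.isP).Rel (T₀ (u₀ x)) (u₀ (t x)) := by
    intro x
    refine rel_of_tb_eq A hq hp Fr (w₀ := w₀ x) ?_ ?_
    · intro h0
      apply hw0 x
      rw [← hw₀ x, h0, map_zero]
    · rw [hT₀', hu₀, hu₀, hw₀, hT]
  have hd1 : ∀ x, (gGen hq hp Fr.isP).HasDepth (u₀ x) 1 := fun x =>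
    hasDepth_one_of_cong1 A hq hp Fr (h3 x (u₀ x) (hu₀ x))
  have hL1 := L1 hp2 hOp hroot Fr.hj0 u₀ t htinj hrel hd1 x
  -- 6. back to `ℚ̄`
  obtain ⟨c, g, hc, hg, hdeep⟩ := deep_of_hasDepth A hq hp Fr hL1
  obtain ⟨h, hh, hcl⟩ := exists_kum_eq hp.pos (u x) hc hg
  refine ⟨h, hcl.trans (hcls x), ?_⟩
  rw [hh, ← hu₀ x, ← hFr]
  exact hdeep

end Fermat.Agent.S33.Old

end
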