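/-
S33 / Old (owner helper93).  TASK OLD-16: **Node Old1.**
-/
import Fermat.Agent.S33.Old.Old1Dyn
import Fermat.Agent.S33.Old.BarEq
import Fermat.Agent.S33.Depth.L1
import Fermat.Agent.S33.Mid.Nodes

set_option autoImplicit false

noncomputable section

namespace Fermat.Agent.S33.Old

open ModularCurve AlgebraicCurve Fermat.Agent.S24 Fermat.Agent.S18 Fermat.Agent.S18.Descent
  Fermat.Agent.GAL.E Fermat.Agent.C1 Fermat.Agent.S33.Cech Fermat.Agent.S33.Depth
  Fermat.Agent.S33.Mid Fermat.Agent.S30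

variable {M p : ℕ} [NeZero M] [Fact p.Prime]

private theorem old1_eq_zero {G : Type*} [AddCommGroup G] {p a : ℕ} (hp : p.Prime)
    (hna : ¬ a ≡ 1 [MOD p]) {z : G} (hpz : p • z = 0) (h3 : z = a • z) : z = 0 := by
  have hnd : ¬ (p : ℤ) ∣ (a : ℤ) - 1 := by
    intro hdvd
    apply hna
    have h4 : 1 ≡ a [MOD p] := (Nat.modEq_iff_dvd).2 (by simpa using hdvd)
    exact h4.symm
  have hcop : IsCoprime (p : ℤ) ((a : ℤ) - 1) :=
    (Nat.prime_iff_prime_int.1 hp).coprime_iff_not_dvd.2 hnd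
  obtain ⟨u, v, huv⟩ := hcop
  have h5 : ((a : ℤ) - 1) • z = 0 := by
    rw [sub_smul, one_smul, natCast_zsmul, ← h3, sub_self]
  have h6 : ((p : ℕ) : ℤ) • z = 0 := by rw [natCast_zsmul, hpz]
  calc z = (1 : ℤ) • z := (one_smul _ _).symm
    _ = (u * (p : ℤ) + v * ((a : ℤ) - 1)) • z := by rw [huv]
    _ = 0 := by rw [add_smul, mul_smul, mul_smul, h5, h6, smul_zero, smul_zero, add_zero]

private theorem old1_inj {G : Type*} [AddCommGroup G] (T : G →+ G) (Z : AddSubgroup G)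
    (hker : ∀ z ∈ Z, T z = 0 → z = 0) {x y : G} (hx : x ∈ Z) (hy : y ∈ Z) (h : T x = T y) :
    x = y :=
  sub_eq_zero.1 (hker _ (Z.sub_mem hx hy) (by rw [map_sub, h, sub_self]))

/-- **Node Old1.**  `X := Z`, `ι := Subtype.val`, `t z := ⟨TW z, _⟩` (injective because `TW` is additive
and has trivial kernel on `Z`).  `deep_of_dynamics` and `rho_eq_smul_of_deep` give `z = rho s z = a • z`;
with `p • z = 0` (`nsmul_W`) and `¬ a ≡ 1 [MOD p]` this forces `z = 0` (Bezout for `a - 1` and `p` in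
`ℤ`).  A primitive root: `zetaK p` (`isPrimitiveRoot_zetaK`), or `IsAlgClosed`. -/
theorem nodeOld1 (hp2 : p ≠ 2) (hpM : ¬ p ∣ M) (D : BaseData M p) (hfin : Finite (W M p)) :
    NodeOld1 M p := by
  intro A hA Hp Z hK hT hker s hs a ha hna z hz hfix
  have hζ : IsPrimitiveRoot ((Fermat.Agent.S24.B.zetaK p : Kbarˣ) : Kbar) p :=
    IsPrimitiveRoot.coe_units_iff.2 (Fermat.Agent.S24.B.isPrimitiveRoot_zetaK p)
  let t : Z → Z := fun z => ⟨Hp.TW p z, hT z z.2⟩
  have htinj : Function.Injective t := by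
    intro x y hxy
    have h1 : Hp.TW p (x : W M p) = Hp.TW p (y : W M p) := congrArg Subtype.val hxy
    exact Subtype.ext (old1_inj (Hp.TW p) Z hker x.2 y.2 h1)
  obtain ⟨h, hcls, hd⟩ := deep_of_dynamics hp2 A hA Hp (fun x : Z => (x : W M p)) t htinj
    (fun x => hK x x.2) (fun x => rfl) hζ ⟨z, hz⟩
  have h3 := rho_eq_smul_of_deep hpM D A hA hζ hs ha h hd
  have hcls' : cls h = z := hcls
  rw [hcls', hfix] at h3
  exact old1_eq_zero (G := W M p) (Fact.out : p.Prime) hna (nsmul_W z) h3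

end Fermat.Agent.S33.Old

end
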