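/-
S33 / Old (owner helper93).  TASK OLD-7: (KLp) over `ℚ̄`.
-/
import Fermat.Agent.S33.Old.Bar

set_option autoImplicit false

noncomputable section

namespace Fermat.Agent.S33.Old

open ModularCurve AlgebraicCurve Fermat.Agent.S24 Fermat.Agent.S18 Fermat.Agent.S18.Descent
  Fermat.Agent.GAL.E Fermat.Agent.C1 Fermat.Agent.S33.Cech

variable {M p : ℕ} [NeZero M] [Fact p.Prime]

/-- **(KLp) over `ℚ̄`.**
Proof.  If `t = 0` then `h = 1`.  Otherwise let `y` be as in `Deep`.  By `ev_defined` (for `h`, `y`),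
`ev_mem` (for `ζ`, `t`), `ev_kum`, `ev_gaussInt`, `Ev.and`, `Ev.exists_finite` there is a number field
`K₀` with `h₀, y₀ : FK K₀ M`, `ζ₀, t₀ : K₀`.  The relation `h₀ = 1 + ((ζ₀ - 1) ^ p * t₀) y₀` follows
from `tb_injective` (`toBar_algebraMap`).  `klp₀_of_base` gives `s ≠ 0` with `s ^ p * h₀` algebraic over
`K₀`; `exists_const_of_isAlgebraic'`: `tb s ^ p * h = c = d ^ p`. -/
theorem klp_bar (hpM : ¬ p ∣ M) (D : BaseData M p) (A : ValuationSubring Kbar)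
    (hA : A.LiesOverPrime p) {ζ : Kbar} (hζ : IsPrimitiveRoot ζ p) {t : Kbar}
    (ht : t ∈ A.nonunits) {h : FN M} (hk : IsKum M p h) (hd : Deep A M ((ζ - 1) ^ p * t) h) :
    ∃ w : FN M, h = w ^ p := by
  obtain ⟨y, hy, hh⟩ := hd
  by_cases ht0 : t = 0
  · refine ⟨1, ?_⟩
    rw [hh, ht0, mul_zero, map_zero, zero_mul, add_zero, one_pow]
  have hev := (((ev_defined h).and (ev_defined y)).and ((ev_mem ζ).and (ev_mem t))).and
    ((ev_kum h hk).and (ev_gaussInt A y hy))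
  obtain ⟨K₀, hfin, ⟨⟨⟨h₀, hh₀⟩, ⟨y₀, hy₀⟩⟩, hζK, htK⟩, hkum, hgauss⟩ := hev.exists_finite
  have hζ₀ : IsPrimitiveRoot (⟨ζ, hζK⟩ : K₀) p :=
    IsPrimitiveRoot.of_map_of_injective (f := algebraMap K₀ Kbar) hζ (algebraMap K₀ Kbar).injective
  have hval : A.valuation t < 1 := (ValuationSubring.mem_nonunits_iff A).mp ht
  have ht₀ : (⟨t, htK⟩ : K₀) ∈ A.comap (algebraMap K₀ Kbar) := by
    rw [ValuationSubring.mem_comap]
    exact (A.valuation_le_one_iff t).mp hval.le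
  have ht₀' : (⟨t, htK⟩ : K₀)⁻¹ ∉ A.comap (algebraMap K₀ Kbar) := by
    rw [ValuationSubring.mem_comap, map_inv₀]
    intro hmem
    have h1 : A.valuation t⁻¹ ≤ 1 := (A.valuation_le_one_iff _).mpr hmem
    have h2 : A.valuation (t * t⁻¹) < 1 := by
      rw [map_mul]
      exact lt_of_le_of_lt (mul_le_of_le_one_right' h1) hval
    rw [mul_inv_cancel₀ ht0, map_one] at h2
    exact lt_irrefl _ h2
  have hrel : h₀ = 1 + algebraMap K₀ (FK K₀ M) (((⟨ζ, hζK⟩ : K₀) - 1) ^ p * ⟨t, htK⟩) * y₀ := by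
    apply tb_injective K₀
    rw [map_add, map_one, map_mul, toBar_algebraMap, hh₀, hy₀, hh]
    rfl
  obtain ⟨s, hs0, halg⟩ := klp₀_of_base hpM D A hA K₀ ⟨ζ, hζK⟩ hζ₀ ⟨t, htK⟩ ht₀ ht₀' h₀ y₀
    (hgauss y₀ hy₀) hrel (hkum h₀ hh₀)
  obtain ⟨c, hc⟩ := exists_const_of_isAlgebraic' K₀ halg
  obtain ⟨d, hd⟩ : ∃ d : Kbar, d ^ p = c :=
    IsAlgClosed.exists_pow_nat_eq c (Fact.out : p.Prime).pos
  have hs : tb M K₀ s ≠ 0 := (map_ne_zero (tb M K₀)).mpr hs0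
  refine ⟨algebraMap Kbar (FN M) d / tb M K₀ s, ?_⟩
  rw [div_pow, ← map_pow, hd, ← hc, map_mul, map_pow, hh₀, mul_div_cancel_left₀ _ (pow_ne_zero p hs)]

/-- **Very deep classes vanish.** -/
theorem cls_eq_zero_of_deep (hpM : ¬ p ∣ M) (D : BaseData M p) (A : ValuationSubring Kbar)
    (hA : A.LiesOverPrime p) {ζ : Kbar} (hζ : IsPrimitiveRoot ζ p) {t : Kbar}
    (ht : t ∈ A.nonunits) (h : kum M p)
    (hd : Deep A M ((ζ - 1) ^ p * t) ((h : (FN M)ˣ) : FN M)) : cls h = 0 := by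
  rw [cls_eq_zero_iff]
  obtain ⟨w, hw⟩ := klp_bar hpM D A hA hζ ht (mem_kum.mp h.2) hd
  exact mem_pows_of_eq_pow hw

end Fermat.Agent.S33.Old

end
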