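/-
S33 / Old (owner helper93).  TASK OLD-17: the field `L = ℚ̄ ^ H`, `H = {σ ∈ I_A : σ ζ_p = ζ_p}`
(`= K0(ζ_p)`, `K0` the inertia field): `ζ_p - 1` is a uniformiser.
-/
import Fermat.Agent.Lib.InertiaField.Unram
import Fermat.Agent.Lib.InertiaField.Closed
import Fermat.Agent.S33.Cech.Mod.Arith
import Fermat.Prelude.Def_EllipticCurve_FrobeniusTrace
import Fermat.Agent.S05.Inertia

set_option autoImplicit false

noncomputable section

namespace Fermat.Agent.S33.Old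

open Fermat.Agent.Lib.InertiaField

/-- The elements of the inertia group which fix `ζ`. -/
def Hz (A : ValuationSubring Qb) (ζ : Qb) : Subgroup GQ where
  carrier := {σ | σ ∈ A.inertiaSubgroupIn ℚ ∧ σ ζ = ζ}
  one_mem' := ⟨one_mem _, rfl⟩
  mul_mem' := by
    rintro a b ⟨ha, ha'⟩ ⟨hb, hb'⟩
    exact ⟨mul_mem ha hb, by rw [AlgEquiv.mul_apply, hb', ha']⟩
  inv_mem' := by
    rintro a ⟨ha, ha'⟩
    refine ⟨inv_mem ha, ?_⟩
    conv_lhs => rw [← ha']
    exact a.symm_apply_apply ζ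

theorem mem_Hz {A : ValuationSubring Qb} {ζ : Qb} {σ : GQ} :
    σ ∈ Hz A ζ ↔ σ ∈ A.inertiaSubgroupIn ℚ ∧ σ ζ = ζ := Iff.rfl

variable (A : ValuationSubring Qb) {p : ℕ} {ζ : Qb}

/-- The orbit of `x` under inertia has at most `p - 1` elements if `x` is fixed by `Hz`:
`σ ζ ↦ σ x` is well defined and `σ ζ` is a primitive `p`-th root of unity. -/
theorem exists_orbit (hp : p.Prime) (hζ : IsPrimitiveRoot ζ p) {x : Qb}
    (hfix : ∀ σ ∈ Hz A ζ, σ x = x) :
    ∃ S : Finset Qb, x ∈ S ∧ S.card ≤ p - 1 ∧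
      (∀ y ∈ S, ∃ σ ∈ A.inertiaSubgroupIn ℚ, σ x = y) ∧
      ∀ σ ∈ A.inertiaSubgroupIn ℚ, ∀ y ∈ S, σ y ∈ S := by
  classical
  have key : ∀ σ ∈ A.inertiaSubgroupIn ℚ, ∀ τ ∈ A.inertiaSubgroupIn ℚ, σ ζ = τ ζ → σ x = τ x := by
    intro σ hσ τ hτ h
    have hm : τ⁻¹ * σ ∈ Hz A ζ := by
      refine ⟨mul_mem (inv_mem hτ) hσ, ?_⟩
      rw [AlgEquiv.mul_apply, h]
      exact τ.symm_apply_apply ζ
    have h1 := hfix _ hm
    rw [AlgEquiv.mul_apply] at h1
    have h2 : τ (τ⁻¹ (σ x)) = σ x := τ.apply_symm_apply (σ x)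
    rw [← h2, h1]
  let f : Qb → Qb := fun η => if h : ∃ σ ∈ A.inertiaSubgroupIn ℚ, σ ζ = η then h.choose x else x
  have hf : ∀ σ ∈ A.inertiaSubgroupIn ℚ, f (σ ζ) = σ x := by
    intro σ hσ
    have h : ∃ τ ∈ A.inertiaSubgroupIn ℚ, τ ζ = σ ζ := ⟨σ, hσ, rfl⟩
    simp only [f, dif_pos h]
    exact key _ h.choose_spec.1 _ hσ h.choose_spec.2
  refine ⟨((primitiveRoots p Qb).filter
    (fun η => ∃ σ ∈ A.inertiaSubgroupIn ℚ, σ ζ = η)).image f, ?_, ?_, ?_, ?_⟩
  · rw [Finset.mem_image]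
    refine ⟨ζ, ?_, ?_⟩
    · rw [Finset.mem_filter, mem_primitiveRoots hp.pos]
      exact ⟨hζ, 1, one_mem _, rfl⟩
    · exact hf 1 (one_mem _)
  · calc _ ≤ ((primitiveRoots p Qb).filter
          (fun η => ∃ σ ∈ A.inertiaSubgroupIn ℚ, σ ζ = η)).card := Finset.card_image_le
      _ ≤ (primitiveRoots p Qb).card := Finset.card_filter_le _ _
      _ = p - 1 := by rw [hζ.card_primitiveRoots, Nat.totient_prime hp]
  · intro y hy
    obtain ⟨η, hη, rfl⟩ := Finset.mem_image.1 hy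
    obtain ⟨-, σ, hσ, rfl⟩ := Finset.mem_filter.1 hη
    exact ⟨σ, hσ, (hf σ hσ).symm⟩
  · intro σ hσ y hy
    obtain ⟨η, hη, rfl⟩ := Finset.mem_image.1 hy
    obtain ⟨-, τ, hτ, rfl⟩ := Finset.mem_filter.1 hη
    rw [hf τ hτ, Finset.mem_image]
    refine ⟨(σ * τ) ζ, ?_, ?_⟩
    · rw [Finset.mem_filter, mem_primitiveRoots hp.pos]
      exact ⟨hζ.map_of_injective (σ * τ).injective, σ * τ, mul_mem hσ hτ, rfl⟩
    · rw [hf _ (mul_mem hσ hτ)]
      rfl

/-- **`ζ - 1` divides every non unit fixed by `Hz`.**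
Proof.  `N := ∏ y ∈ S, y` is fixed by inertia (`σ` permutes `S`), so `N ∈ K0 A`; it is a non unit
(`x ∈ S`, the other factors are in `A`: `apply_mem_of_mem_decomposition`); `div_mem`: `N / p ∈ A`.
Every `y = σ x` has the same valuation as `x` (`y / x` and `x / y` are in `A`:
if `x / σ x ∉ A` then `σ x / x` is a non unit; apply powers of `σ` … or simply use
`A.valuation (σ x) = A.valuation x` for `σ` in the decomposition group, from
`apply_mem_of_mem_decomposition` applied to `σ` and `σ⁻¹`).  So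
`v(x) ^ n = v(N) ≤ v(p) = v(ζ - 1) ^ (p - 1)` (`Cech.exists_unit_zeta`) with `n = S.card ≤ p - 1` and
`v(x) < 1`; hence `v(x) ^ (p - 1) ≤ v(x) ^ n ≤ v(ζ - 1) ^ (p - 1)` and `v(x) ≤ v(ζ - 1)`
(`pow_le_pow_iff_left₀` in the linearly ordered group with zero). -/
theorem div_zeta_sub_one_mem (hp : p.Prime) (hA : A.LiesOverPrime p) (hζ : IsPrimitiveRoot ζ p)
    {x : Qb} (hx : x ∈ A.nonunits) (hfix : ∀ σ ∈ Hz A ζ, σ x = x) : x / (ζ - 1) ∈ A := by
  classical
  obtain ⟨S, hxS, hcard, horb, hstab⟩ := exists_orbit A hp hζ hfix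
  have : Algebra.IsAlgebraic ℚ Qb := AlgebraicClosure.isAlgebraic ℚ
  have hval : ∀ y ∈ S, A.valuation y = A.valuation x := by
    intro y hy
    obtain ⟨σ, hσ, rfl⟩ := horb y hy
    exact S05.inertia_valuation_eq A hσ x
  have hN0 : (∏ y ∈ S, y) ∈ K0 A := by
    rw [mem_K0_iff]
    intro σ hσ
    rw [map_prod]
    have himg : S.image σ = S := by
      refine Finset.eq_of_subset_of_card_le ?_ ?_
      · intro z hz
        obtain ⟨y, hy, rfl⟩ := Finset.mem_image.1 hz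
        exact hstab σ hσ y hy
      · rw [Finset.card_image_of_injective _ σ.injective]
    conv_rhs => rw [← himg]
    rw [Finset.prod_image (fun a _ b _ h => σ.injective h)]
  have hvN : A.valuation (∏ y ∈ S, y) = A.valuation x ^ S.card := by
    rw [map_prod, Finset.prod_congr rfl hval, Finset.prod_const]
  have hvx : A.valuation x < 1 := (ValuationSubring.mem_nonunits_iff A).1 hx
  have hcard0 : S.card ≠ 0 := Finset.card_ne_zero_of_mem hxS
  have hNn : (∏ y ∈ S, y) ∈ A.nonunits := by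
    rw [ValuationSubring.mem_nonunits_iff, hvN]
    exact pow_lt_one₀ zero_le hvx hcard0
  have h1 := div_mem A p hp hA hN0 hNn
  have hp0 : (p : Qb) ≠ 0 := by exact_mod_cast hp.ne_zero
  have h2 : A.valuation (∏ y ∈ S, y) ≤ A.valuation (p : Qb) := by
    have h := (A.valuation_le_one_iff _).2 h1
    rw [map_div₀] at h
    exact (div_le_one₀ (zero_lt_iff.2 ((Valuation.ne_zero_iff _).2 hp0))).1 h
  obtain ⟨ε, hε, -, hpε⟩ := Cech.exists_unit_zeta (A₀ := A) hp hζ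
  have hvε : A.valuation ε ≤ 1 := (A.valuation_le_one_iff _).2 hε
  have h3 : A.valuation (p : Qb) ≤ A.valuation (ζ - 1) ^ (p - 1) := by
    rw [hpε, map_mul, map_pow]
    exact mul_le_of_le_one_left' hvε
  have h4 : A.valuation x ^ (p - 1) ≤ A.valuation x ^ S.card :=
    pow_le_pow_of_le_one zero_le hvx.le hcard
  have h5 : A.valuation x ^ (p - 1) ≤ A.valuation (ζ - 1) ^ (p - 1) := by
    rw [hvN] at h2
    exact h4.trans (h2.trans h3)
  have h6 : A.valuation x ≤ A.valuation (ζ - 1) :=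
    (pow_le_pow_iff_left₀ zero_le zero_le (by have := hp.two_le; omega)).1 h5
  rw [← A.valuation_le_one_iff, map_div₀]
  exact div_le_one_of_le₀ h6 zero_le

/-- `Hz` is normalised by the decomposition group (`conj_mem_inertia`; `σ ζ` is a power of `ζ`). -/
theorem conj_mem_Hz (hp : p.Prime) (hζ : IsPrimitiveRoot ζ p) {σ τ : GQ}
    (hσ : σ ∈ A.decompositionSubgroup ℚ) (hτ : τ ∈ Hz A ζ) : σ * τ * σ⁻¹ ∈ Hz A ζ := by
  have : NeZero p := ⟨hp.ne_zero⟩
  refine ⟨conj_mem_inertia A hσ hτ.1, ?_⟩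
  have h1 : (σ⁻¹ ζ) ^ p = 1 := by rw [← map_pow, hζ.pow_eq_one, map_one]
  obtain ⟨i, -, hi⟩ := hζ.eq_pow_of_pow_eq_one h1
  rw [AlgEquiv.mul_apply, AlgEquiv.mul_apply, ← hi, map_pow, hτ.2, hi]
  exact σ.apply_symm_apply ζ

/-- the fixed field of `Hz` is stable under the decomposition group -/
theorem mem_fixedField_Hz_iff (hp : p.Prime) (hζ : IsPrimitiveRoot ζ p) {σ : GQ}
    (hσ : σ ∈ A.decompositionSubgroup ℚ) (x : Qb) :
    x ∈ IntermediateField.fixedField (Hz A ζ) ↔ σ x ∈ IntermediateField.fixedField (Hz A ζ) := by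
  rw [IntermediateField.mem_fixedField_iff, IntermediateField.mem_fixedField_iff]
  constructor
  · intro h τ hτ
    have h1 := h _ (conj_mem_Hz A hp hζ (inv_mem hσ) hτ)
    rw [inv_inv, AlgEquiv.mul_apply, AlgEquiv.mul_apply] at h1
    have h2 : σ (σ⁻¹ (τ (σ x))) = τ (σ x) := σ.apply_symm_apply _
    rw [← h2, h1]
  · intro h τ hτ
    have h1 := h _ (conj_mem_Hz A hp hζ hσ hτ)
    rw [AlgEquiv.mul_apply, AlgEquiv.mul_apply] at h1
    have h2 : σ⁻¹ (σ x) = x := σ.symm_apply_apply x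
    rw [h2] at h1
    exact σ.injective h1

theorem zeta_mem_fixedField_Hz : ζ ∈ IntermediateField.fixedField (Hz A ζ) := by
  rw [IntermediateField.mem_fixedField_iff]
  exact fun τ hτ => hτ.2

end Fermat.Agent.S33.Old

end
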