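/-
S33 / Old (owner helper93).  TASK OLD-19: representatives fixed by `Hz`.
-/
import Fermat.Agent.S33.Old.FrameHecke
import Fermat.Agent.S33.Old.Tame
import Fermat.Agent.S33.Mid.Nodes
import Fermat.Agent.BAD.Descent

set_option autoImplicit false

noncomputable section

namespace Fermat.Agent.S33.Old

open ModularCurve AlgebraicCurve Fermat.Agent.S24 Fermat.Agent.S18 Fermat.Agent.S18.Descent
  Fermat.Agent.GAL.E Fermat.Agent.C1 Fermat.Agent.S33.Cech Fermat.Agent.S33.Depth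
  Fermat.Agent.S33.Mid Fermat.Agent.S30

variable {M p : ℕ} [NeZero M] [Fact p.Prime]

/-- **Representatives over the fixed field of `Hz`.**
1. `σ ∈ Hz A ζ` satisfies `IsCyc p 1 σ 1` (every `μ` with `μ ^ p = 1` is a power of `ζ`), so
   `rho σ z = 1 • z = z`.
2. `BAD.Descent.exists_fixed_rep M p _ (Hz A ζ) z` gives `u` fixed by `Hz`.
3. `TW z = 0` gives `w` with `w ^ p = Hp.T u` (`HeckeOp.TW_cls`, `cls_eq_zero_iff`); `Hp.T u` is fixed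
   by `Hz` (`galF_heckeOp`); `BAD.Descent.exists_fixed_root` gives `Hp.T u = c * w₁ ^ p`, `c`, `w₁` fixed. -/
theorem exists_fixed_data (A : ValuationSubring Kbar) (Hp : HeckeOp M p) {ζ : Kbar}
    (hζ : IsPrimitiveRoot ζ p) (z : W M p)
    (hz : ∀ σ : Fermat.Agent.GAL.E.GQ, σ ∈ A.inertiaSubgroupIn ℚ → ∀ a : ℕ, IsCyc p 1 σ a → rho M p σ z = a • z)
    (hT : Hp.TW p z = 0) :
    ∃ (u : kum M p) (w : FN M) (c : Kbar), cls u = z ∧ w ≠ 0 ∧ c ≠ 0 ∧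
      (∀ σ ∈ Hz A ζ, galF M σ ((u : (FN M)ˣ) : FN M) = ((u : (FN M)ˣ) : FN M)) ∧
      (∀ σ ∈ Hz A ζ, galF M σ w = w) ∧ (∀ σ ∈ Hz A ζ, σ c = c) ∧
      Hp.T ((u : (FN M)ˣ) : FN M) = algebraMap Kbar (FN M) c * w ^ p := by
  have hp : 0 < p := (Fact.out : p.Prime).pos
  -- 1. `z` is fixed by `Hz`
  have hfix : ∀ σ ∈ Hz A ζ, rho M p σ z = z := by
    intro σ hσ
    obtain ⟨hσI, hσζ⟩ := mem_Hz.1 hσ
    have hcyc : IsCyc p 1 σ 1 := by
      intro μ hμ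
      rw [pow_one] at hμ ⊢
      obtain ⟨i, -, rfl⟩ := hζ.eq_pow_of_pow_eq_one hμ
      rw [map_pow, hσζ]
    have h1 := hz σ hσI 1 hcyc
    rwa [one_nsmul] at h1
  -- 2. a fixed representative
  obtain ⟨u, hu, hufix, -⟩ := BAD.Descent.exists_fixed_rep M p hp (Hz A ζ) z hfix
  -- 3. the root
  have hT' : cls (⟨Hp.TU (u : (FN M)ˣ), Hp.TU_mem_kum (u : (FN M)ˣ) u.2⟩ : kum M p) = 0 := by
    rw [← HeckeOp.TW_cls, hu, hT]
  obtain ⟨w, hw⟩ := (cls_eq_zero_iff _).1 hT'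
  have hw' : ((w : (FN M)ˣ) : FN M) ^ p = Hp.T ((u : (FN M)ˣ) : FN M) := by
    have h1 := congrArg Units.val hw
    rw [powMonoidHom_apply, Units.val_pow_eq_pow_val] at h1
    exact h1
  have hz0 : Hp.T ((u : (FN M)ˣ) : FN M) ≠ 0 := (Hp.TU (u : (FN M)ˣ)).ne_zero
  have hTfix : ∀ σ ∈ Hz A ζ, galF M σ (Hp.T ((u : (FN M)ˣ) : FN M)) =
      Hp.T ((u : (FN M)ˣ) : FN M) := by
    intro σ hσ
    rw [galF_heckeOp, hufix σ hσ]
  obtain ⟨w₁, hc, hw₁, hlc, he⟩ := BAD.Descent.exists_fixed_root hp (Hz A ζ) hz0 hTfix hw'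
  refine ⟨u, w₁, BAD.Descent.lc (Hp.T ((u : (FN M)ˣ) : FN M)), hu, ?_,
    BAD.Descent.lc_ne_zero hz0, hufix, hw₁, hc, he⟩
  rintro rfl
  rw [zero_pow hp.ne', mul_zero] at he
  exact hz0 he

end Fermat.Agent.S33.Old

end
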