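/-
S33 / Old (owner helper93).  TASK OLD-20: a Frobenius-stable number field inside the fixed field of `Hz`.
-/
import Fermat.Agent.S33.Old.BridgeMem
import Fermat.Agent.S33.Old.Tame
import Fermat.Agent.S33.Mid.Nodes
import Fermat.Agent.BAD.Descent

set_option autoImplicit false

noncomputable section

namespace Fermat.Agent.S33.Old

open ModularCurve AlgebraicCurve Fermat.Agent.S24 Fermat.Agent.S18 Fermat.Agent.S18.Descent
  Fermat.Agent.GAL.E Fermat.Agent.C1 
  Fermat.Agent.S33.Mid Fermat.Agent.S30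

variable {M p : ℕ} [NeZero M] [Fact p.Prime]

/-- **A number field inside the fixed field of `Hz`, stable under Frobenius, over which finitely many
`Hz`-fixed elements are defined.**  Take `N` finite and normal over `ℚ` over which `y i` are defined and
containing `ζ`, `c` (`ev_defined`, `ev_mem`, `Ev.exists_normal`), and
`K₀ := N ⊓ fixedField (Hz A ζ)`.  The coefficients of `y i` lie in `N` (`coeff_tb_mem`) and in the fixed
field (`BAD.Descent.coeff_mem_fixedField`); `exists_tb_eq_of_coeff_mem`.  Stability: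
`mem_iff_apply_mem_of_normal`, `mem_fixedField_Hz_iff`. -/
theorem exists_tame_field (A : ValuationSubring Kbar) {ζ : Kbar} (hζ : IsPrimitiveRoot ζ p)
    {σ : Fermat.Agent.GAL.E.GQ} (hσ : σ ∈ A.decompositionSubgroup ℚ) (y₁ y₂ : FN M) (c : Kbar)
    (h₁ : ∀ τ ∈ Hz A ζ, galF M τ y₁ = y₁) (h₂ : ∀ τ ∈ Hz A ζ, galF M τ y₂ = y₂)
    (hc : ∀ τ ∈ Hz A ζ, τ c = c) :
    ∃ K₀ : IntermediateField ℚ Kbar, FiniteDimensional ℚ K₀ ∧
      K₀ ≤ IntermediateField.fixedField (Hz A ζ) ∧ (∀ x : Kbar, x ∈ K₀ ↔ σ x ∈ K₀) ∧ ζ ∈ K₀ ∧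
      c ∈ K₀ ∧ (∃ y : FK K₀ M, tb M K₀ y = y₁) ∧ ∃ y : FK K₀ M, tb M K₀ y = y₂ := by
  have hp : p.Prime := Fact.out
  obtain ⟨N, hfin, hnorm, ⟨⟨⟨z₁, hz₁⟩, ⟨z₂, hz₂⟩⟩, hζN⟩, hcN⟩ :=
    (((ev_defined y₁).and (ev_defined y₂)).and (ev_mem ζ)).and (ev_mem c) |>.exists_normal
  have hle : N ⊓ IntermediateField.fixedField (Hz A ζ) ≤ N := inf_le_left
  refine ⟨N ⊓ IntermediateField.fixedField (Hz A ζ), ?_, inf_le_right, ?_, ?_, ?_, ?_, ?_⟩
  · exact FiniteDimensional.of_injective (IntermediateField.inclusion hle).toLinearMap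
      (IntermediateField.inclusion hle).toRingHom.injective
  · intro x
    rw [IntermediateField.mem_inf, IntermediateField.mem_inf,
      ← mem_iff_apply_mem_of_normal N σ x, ← mem_fixedField_Hz_iff A hp hζ hσ x]
  · exact IntermediateField.mem_inf.mpr ⟨hζN, zeta_mem_fixedField_Hz A⟩
  · exact IntermediateField.mem_inf.mpr ⟨hcN, fun τ => hc τ.1 τ.2⟩
  · refine exists_tb_eq_of_coeff_mem _ y₁ fun k => IntermediateField.mem_inf.mpr ⟨?_, ?_⟩
    · rw [← hz₁]; exact coeff_tb_mem N z₁ k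
    · exact Fermat.Agent.BAD.Descent.coeff_mem_fixedField (Hz A ζ) h₁ k
  · refine exists_tb_eq_of_coeff_mem _ y₂ fun k => IntermediateField.mem_inf.mpr ⟨?_, ?_⟩
    · rw [← hz₂]; exact coeff_tb_mem N z₂ k
    · exact Fermat.Agent.BAD.Descent.coeff_mem_fixedField (Hz A ζ) h₂ k

end Fermat.Agent.S33.Old

end
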