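/-
S33 / Old (owner helper93).  TASK OLD-18: `e = p - 1` over the fixed field of `Hz`.
-/
import Fermat.Agent.S33.Old.Transfer
import Fermat.Agent.S33.Old.Tame
import Fermat.Agent.S33.Mid.Nodes

set_option autoImplicit false

noncomputable section

namespace Fermat.Agent.S33.Old

open ModularCurve AlgebraicCurve Fermat.Agent.S24 Fermat.Agent.S18 Fermat.Agent.S18.Descent
  Fermat.Agent.GAL.E Fermat.Agent.C1 Fermat.Agent.S33.Cech Fermat.Agent.S33.Depth
  Fermat.Agent.S33.Mid Fermat.Agent.S30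

variable {M p : ℕ} [NeZero M] [Fact p.Prime]

/-- In a frame over a subfield of the fixed field of `Hz`, `ζ - 1` is a uniformiser: `j0 = 1`.
(`π` is a non unit fixed by `Hz`, so `π / (ζ - 1) ∈ A` (`div_zeta_sub_one_mem`); `ζ - 1 = μ π ^ j0`;
if `j0 ≥ 2` then `π⁻¹ ∈ A`.  `Frame.j0_pos`.) -/
theorem Frame.j0_eq_one (A : ValuationSubring Kbar) (hA : A.LiesOverPrime p)
    {K₀ : IntermediateField ℚ Kbar} [IsDiscreteValuationRing (rA A K₀)]
    (Fr : Frame p (rA A K₀)) (hK : K₀ ≤ IntermediateField.fixedField (Hz A (Fr.ζ A))) :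
    Fr.j0 = 1 := by
  have hp : p.Prime := Fact.out
  set a : Kbar := (((Fr.π : rA A K₀) : K₀) : Kbar) with ha
  set m : Kbar := ((((Fr.μ : (rA A K₀)ˣ) : rA A K₀) : K₀) : Kbar) with hm
  -- `ζ` is a primitive root of unity
  have hζ : IsPrimitiveRoot (Fr.ζ A) p := by
    have h1 : IsPrimitiveRoot ((Fr.ξ : (rA A K₀)ˣ) : rA A K₀) p :=
      IsPrimitiveRoot.coe_units_iff.2 Fr.hξ
    have h2 : IsPrimitiveRoot (((Fr.ξ : (rA A K₀)ˣ) : rA A K₀) : K₀) p :=
      h1.map_of_injective (f := (rA A K₀).subtype) Subtype.val_injective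
    exact h2.map_of_injective (f := algebraMap K₀ Kbar) (algebraMap K₀ Kbar).injective
  have ha0 : a ≠ 0 := by
    intro h
    apply Fr.isP.irr.ne_zero
    apply Subtype.ext
    apply Subtype.ext
    exact h
  -- `π` is a non unit of `A`
  have hv1 : A.valuation a < 1 := by
    by_contra hcon
    rw [not_lt] at hcon
    have h1 : a⁻¹ ∈ A := by
      rw [← A.valuation_le_one_iff, map_inv₀]
      exact inv_le_one_of_one_le₀ hcon
    have h2 : (((Fr.π : rA A K₀) : K₀))⁻¹ ∈ rA A K₀ := by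
      rw [ValuationSubring.mem_comap, map_inv₀]
      exact h1
    apply Fr.isP.irr.not_isUnit
    refine IsUnit.of_mul_eq_one (⟨_, h2⟩ : rA A K₀) ?_
    apply Subtype.ext
    show ((Fr.π : rA A K₀) : K₀) * (((Fr.π : rA A K₀) : K₀))⁻¹ = 1
    refine mul_inv_cancel₀ ?_
    intro h
    exact Fr.isP.irr.ne_zero (Subtype.ext h)
  have hnon : a ∈ A.nonunits := (ValuationSubring.mem_nonunits_iff A).2 hv1
  have hfix : ∀ σ ∈ Hz A (Fr.ζ A), σ a = a := by
    intro σ hσ
    have h1 : a ∈ IntermediateField.fixedField (Hz A (Fr.ζ A)) := hK ((Fr.π : rA A K₀) : K₀).2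
    exact (IntermediateField.mem_fixedField_iff _ _).1 h1 σ hσ
  have hdiv : a / (Fr.ζ A - 1) ∈ A := div_zeta_sub_one_mem A hp hA hζ hnon hfix
  have hζ1 : Fr.ζ A - 1 ≠ 0 := sub_ne_zero.2 (hζ.ne_one hp.one_lt)
  have heq : Fr.ζ A - 1 = m * a ^ Fr.j0 := by
    have h1 := congrArg (fun x : rA A K₀ => ((x : K₀) : Kbar)) Fr.hμ
    simpa using h1
  have hvm : A.valuation m ≤ 1 := by
    rw [A.valuation_le_one_iff]
    exact ((Fr.μ : (rA A K₀)ˣ) : rA A K₀).2
  have hv0 : 0 < A.valuation a := zero_lt_iff.2 ((map_ne_zero _).2 ha0)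
  have hle : A.valuation a ≤ A.valuation a ^ Fr.j0 := by
    have h1 : A.valuation (a / (Fr.ζ A - 1)) ≤ 1 := (A.valuation_le_one_iff _).2 hdiv
    rw [map_div₀, div_le_one₀ (zero_lt_iff.2 ((map_ne_zero _).2 hζ1)), heq, map_mul, map_pow] at h1
    exact h1.trans (mul_le_of_le_one_left' hvm)
  have hpos : 1 ≤ Fr.j0 := Frame.j0_pos A Fr
  by_contra hne
  have h2 : 2 ≤ Fr.j0 := by omega
  have h3 : A.valuation a ^ Fr.j0 ≤ A.valuation a ^ 2 := pow_le_pow_right_of_le_one' hv1.le h2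
  have h4 : A.valuation a ^ 2 < A.valuation a := by
    rw [pow_two]
    exact (mul_lt_iff_lt_one_left hv0).2 hv1
  exact absurd (hle.trans h3) (not_le.2 h4)

end Fermat.Agent.S33.Old

end
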