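/-
S33 / Old (owner helper93).  TASK OLD-21: **Node Old2.**
-/
import Fermat.Agent.S33.Old.Old2J0
import Fermat.Agent.S33.Old.Old2Data
import Fermat.Agent.S33.Old.Old2Field
import Fermat.Agent.S33.Old.BarKlp
import Fermat.Agent.S33.Old.Tame
import Fermat.Agent.S33.Depth.L2
import Fermat.Agent.S33.Mid.Nodes
import Fermat.Agent.BAD.Descent

set_option autoImplicit false

noncomputable section

namespace Fermat.Agent.S33.Old

open ModularCurve AlgebraicCurve Fermat.Agent.S24 Fermat.Agent.S18 Fermat.Agent.S18.Descent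
  Fermat.Agent.GAL.E Fermat.Agent.C1 Fermat.Agent.S33.Cech Fermat.Agent.S33.Depth
  Fermat.Agent.S33.Mid Fermat.Agent.S30

variable {M p : ℕ} [NeZero M] [Fact p.Prime]

/-- **A class killed by `T_p` on which inertia acts through the cyclotomic character is very deep.**
Proof.
1. `exists_fixed_data` gives `u`, `w`, `c`.  `σ` := a Frobenius (`Lib.Frobenius.exists_isFrobeniusAt`).
2. `exists_tame_field` gives `K₀`, `u₀`, `w₀`.
3. `haveI := isDVR_rA ..`; `hq := isQuot_FK ..`; `Fr` from `exists_frame` (`Fr.ζ A = ζ`);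
   `Fr.j0 = 1` (`Frame.j0_eq_one`), so `Fr.e = p - 1`; `T₀` from `exists_heckeK`; `s₀` from
   `exists_frobLift`; `G := gGen hq hp Fr.isP`; `op_T`, `op0_T`, `rootStable_of_frobLift`,
   `frobStable_of_frobLift`; `haveI := IsP.charP Fr.isP`.
4. `G.Rel 1 (T₀ u₀)`: `tb (T₀ u₀) = Hp.T u = c * w ^ p` (`rel_of_tb_eq'`, `Rel.symm`).
5. `L2z`: depth `≥ 1`; `L2`: depth `≥ p + 1 = p * Fr.j0 + 1`.
6. `deep_of_hasDepth_succ`, `exists_kum_eq`. -/
theorem deep_of_killed (hp2 : p ≠ 2) (A : ValuationSubring Kbar) (hA : A.LiesOverPrime p)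
    (Hp : HeckeOp M p) {ζ : Kbar} (hζ : IsPrimitiveRoot ζ p) (z : W M p)
    (hz : ∀ σ : Fermat.Agent.GAL.E.GQ, σ ∈ A.inertiaSubgroupIn ℚ → ∀ a : ℕ, IsCyc p 1 σ a → rho M p σ z = a • z)
    (hT : Hp.TW p z = 0) :
    ∃ (h : kum M p) (t : Kbar), cls h = z ∧ t ∈ A.nonunits ∧
      Deep A M ((ζ - 1) ^ p * t) ((h : (FN M)ˣ) : FN M) := by
  have hp : p.Prime := Fact.out
  obtain ⟨u, w, c, hu, hw0, hc0, hufix, hwfix, hcfix, hTu⟩ := exists_fixed_data A Hp hζ z hz hT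
  obtain ⟨σ, hσ⟩ := Fermat.Agent.Lib.Frobenius.exists_isFrobeniusAt A p hp hA
  obtain ⟨K₀, hfin, hKfix, hKσ, hζK, hcK, ⟨u₀, hu₀⟩, ⟨w₀, hw₀⟩⟩ :=
    exists_tame_field (M := M) A hζ hσ.mem_decompositionSubgroup ((u : (FN M)ˣ) : FN M) w c
      hufix hwfix hcfix
  haveI := hfin
  haveI := isDVR_rA hp A hA K₀
  have hq := isQuot_FK A hA K₀ M
  obtain ⟨Fr, hFr⟩ := exists_frame A hA K₀ hζ hζK
  have hj0 : Fr.j0 = 1 := Frame.j0_eq_one A hA Fr (by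
    rw [show Fr.ζ A = ζ from hFr]
    exact hKfix)
  obtain ⟨T₀, hT₀coe, hT₀tb⟩ := exists_heckeK Hp K₀ (Fr.isPrimitiveRoot_ξK A)
  obtain ⟨s₀, hs₀⟩ := exists_frobLift A hσ K₀ hKσ M
  haveI := IsP.charP Fr.isP
  have hOp : (gGen hq hp Fr.isP).Op T₀ := op_T hq hp Fr.isP (Fr.pow_eq_one A) T₀ hT₀coe
  have hOp0 : (gGen hq hp Fr.isP).Op0 T₀ := op0_T hq hp Fr.isP (Fr.pow_eq_one A) T₀ hT₀coe
  have hroot := rootStable_of_frobLift hq hp Fr.isP hs₀
  have hfrob := frobStable_of_frobLift hq hp Fr.isP hs₀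
  have hw₀0 : w₀ ≠ 0 := by
    rintro rfl
    rw [map_zero] at hw₀
    exact hw0 hw₀.symm
  have hu₀0 : u₀ ≠ 0 := by
    rintro rfl
    rw [map_zero] at hu₀
    exact (u : (FN M)ˣ).ne_zero hu₀.symm
  have hrel : (gGen hq hp Fr.isP).Rel 1 (T₀ u₀) := by
    refine (rel_of_tb_eq' A hq hp Fr (u₀ := T₀ u₀) (u₁ := 1) (w₀ := w₀) (c := ⟨c, hcK⟩)
      (fun h0 => hc0 (congrArg Subtype.val h0)) hw₀0 ?_).symm
    rw [hT₀tb, hu₀, hTu, map_one, mul_one, hw₀]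
  have h1 := L2z hOp hOp0 hroot hu₀0 hrel
  have he : (gData hq hp Fr.isP).e = p - 1 := by
    show Fr.e = p - 1
    rw [← Fr.hj0, hj0, mul_one]
  have h2 := L2 hp2 hOp hroot hfrob he hrel h1
  have h3 : (gGen hq hp Fr.isP).HasDepth u₀ (p * Fr.j0 + 1) := by
    rw [hj0, mul_one]
    exact h2
  obtain ⟨c', g, t, hc', hg, ht, hdeep⟩ := deep_of_hasDepth_succ A hq hp Fr h3
  obtain ⟨h, hh, hcls⟩ := exists_kum_eq hp.pos u hc' hg
  refine ⟨h, t, hcls.trans hu, ht, ?_⟩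
  rw [hh, ← hu₀, ← hFr]
  exact hdeep

/-- **Node Old2** (`deep_of_killed`, `cls_eq_zero_of_deep`; the hypothesis `IsKinf` is not needed). -/
theorem nodeOld2 (hp2 : p ≠ 2) (hpM : ¬ p ∣ M) (D : BaseData M p) : NodeOld2 M p := by
  intro A hA Hp z _ hz hT
  obtain ⟨h, t, rfl, ht, hd⟩ := deep_of_killed hp2 A hA Hp
    ((Fermat.Agent.S24.B.isPrimitiveRoot_zetaK p).map_of_injective (Units.coeHom_injective)) z hz hT
  exact cls_eq_zero_of_deep hpM D A hA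
    ((Fermat.Agent.S24.B.isPrimitiveRoot_zetaK p).map_of_injective (Units.coeHom_injective)) ht h hd

end Fermat.Agent.S33.Old

end
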